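/-
P-S48 (Deligne-Serre), block KUMMER1 (helper54): the Kummer argument on torsion of `Pic0` for an
ARBITRARY model field `F₀ ⊆ ℚ((q))` (in the application `F₀ = gamma1Field M`).

The definitions (Hnorm) `GaussNormalisable`, (C0) `KummerRedInj`, the action of decomposition /
Frobenius / inertia elements on reductions and triviality of inertia on torsion live in helper78's
`Kummer1/Unram.lean` (landed first, identical content); this file only re-exports it and records
that for `F₀ = modularFunctionFieldFull N` the two hypotheses are definitionally the Gateway ones.
-/
import Fermat.Agent.S48x.Kummer1.Unram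

set_option autoImplicit false

noncomputable section

namespace Fermat.Agent.S48x.Kummer1

open ModularCurve AlgebraicCurve HahnSeries

section Defs

variable {L : Type*} [Field L] [Algebra ℚ L] (A : ValuationSubring L)

/-- for the modular function field these are the Gateway hypotheses -/
theorem gaussNormalisable_modular_iff (N : ℕ) [NeZero N] :
    GaussNormalisable (modularFunctionFieldFull N) A ↔
      Fermat.Agent.Gateway.Kummer.GaussNormalisable N A := Iff.rfl

theorem kummerRedInj_modular_iff (N : ℕ) [NeZero N] (m : ℕ) :
    KummerRedInj (modularFunctionFieldFull N) A m ↔
      Fermat.Agent.Gateway.Kummer.KummerRedInj N A m := Iff.rfl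

end Defs

end Fermat.Agent.S48x.Kummer1
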