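/-
P-S48 (Deligne-Serre), block KUMMER1 (helper54): reduction of the "norm from `L((t))` to `L((t^p))`"
`x ↦ ∏_{b<p} x(ζ^b t)` on fractions of ARBITRARY `A`-integral Laurent series
(`RedRel A π ⊤`), and the upgrade `RedRel A π ⊤ → RedRel A π F` for normalisable elements.
-/
import Fermat.Agent.Gateway.Kummer.Final
import Fermat.Agent.S28.Laurent

set_option autoImplicit false
set_option linter.style.haveILetI false

noncomputable section

namespace Fermat.Agent.S48x.Kummer1

open ModularCurve HahnSeries Fermat.Agent.Gateway.Kummer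

section TwistBridge

variable {R : Type*} [CommRing R]

/-- the two copies of `twist` in the tree agree -/
theorem twist_eq_twistS28 (ζ : Rˣ) (y : LaurentSeries R) :
    twist ζ y = Fermat.Agent.S28.twist ζ y := by
  ext n
  rfl

theorem twist_twist' (ζ ξ : Rˣ) (y : LaurentSeries R) :
    twist ζ (twist ξ y) = twist (ζ * ξ) y := by
  rw [twist_eq_twistS28, twist_eq_twistS28, twist_eq_twistS28, Fermat.Agent.S28.twist_twist]

theorem twist_C (ζ : Rˣ) (r : R) : twist ζ (HahnSeries.C r) = HahnSeries.C r := by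
  ext n
  rw [twist_coeff, HahnSeries.C_apply, HahnSeries.coeff_single]
  split_ifs with h
  · subst h; simp
  · simp

/-- the product over a full set of `p`-th roots of unity is invariant under `t ↦ ζ t` -/
theorem twist_prod_twist {p : ℕ} [NeZero p] {ζ : Rˣ} (hζ : ζ ^ p = 1) (a : LaurentSeries R) :
    twist ζ (∏ i ∈ Finset.range p, twist (ζ ^ i) a) = ∏ i ∈ Finset.range p, twist (ζ ^ i) a := by
  rw [map_prod]
  simp only [twist_twist']
  have hN : 0 < p := Nat.pos_of_ne_zero (NeZero.ne p)
  have key : ∀ i : ℕ, ζ * ζ ^ i = ζ ^ ((i + 1) % p) := by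
    intro i
    rw [← pow_succ', ← Nat.mod_add_div (i + 1) p, _root_.pow_add, pow_mul, hζ, one_pow,
      mul_one, Nat.mod_add_div]
  simp only [key]
  refine Finset.prod_bij' (fun i _ => (i + 1) % p) (fun i _ => (i + (p - 1)) % p)
    ?_ ?_ ?_ ?_ ?_
  · intro i _; exact Finset.mem_range.mpr (Nat.mod_lt _ hN)
  · intro i _; exact Finset.mem_range.mpr (Nat.mod_lt _ hN)
  · intro i hi
    have hi' := Finset.mem_range.mp hi
    simp only [Nat.mod_add_mod]
    rw [show i + 1 + (p - 1) = i + p by omega, Nat.add_mod_right, Nat.mod_eq_of_lt hi']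
  · intro i hi
    have hi' := Finset.mem_range.mp hi
    simp only [Nat.mod_add_mod]
    rw [show i + (p - 1) + 1 = i + p by omega, Nat.add_mod_right, Nat.mod_eq_of_lt hi']
  · intro i _; rfl

/-- over a domain, for a primitive `p`-th root of unity `ζ`, the product `∏_{b<p} a(ζ^b t)` is a
series in `t^p` -/
theorem exists_qExpand_eq_prod_twist [IsDomain R] {p : ℕ} [NeZero p] {ζ : Rˣ}
    (hζ : IsPrimitiveRoot ζ p) (a : LaurentSeries R) :
    ∃ N : LaurentSeries R, qExpand R p N = ∏ i ∈ Finset.range p, twist (ζ ^ i) a := by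
  have h := twist_prod_twist hζ.pow_eq_one a
  rw [twist_eq_twistS28, Fermat.Agent.S28.twist_eq_self_iff p hζ] at h
  obtain ⟨N, hN⟩ := h
  exact ⟨N, hN⟩

end TwistBridge

section Big

variable {L : Type*} [Field L] {A : ValuationSubring L} {k : Type*} [Field k] {π : A →+* k}

theorem redRel_top {F : IntermediateField L (LaurentSeries L)} {u : LaurentSeries L}
    {ū : LaurentSeries k} (h : RedRel A π F u ū) : RedRel A π ⊤ u ū := by
  obtain ⟨y₁, y₂, _, _, h3, h4, h5⟩ := h
  exact ⟨y₁, y₂, IntermediateField.mem_top, IntermediateField.mem_top, h3, h4, h5⟩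

theorem redRel_top_qExpand (n : ℕ) [NeZero n] {u : LaurentSeries L} {ū : LaurentSeries k}
    (h : RedRel A π ⊤ u ū) : RedRel A π ⊤ (qExpand L n u) (qExpand k n ū) := by
  obtain ⟨y₁, y₂, _, _, h3, h4, h5⟩ := h
  refine ⟨qExpand A n y₁, qExpand A n y₂, IntermediateField.mem_top, IntermediateField.mem_top,
    ?_, ?_, ?_⟩
  · rw [Fermat.Agent.Gateway.Kummer.coeffMap_qExpand]
    intro h0
    exact h3 (qExpand_injective n (by rw [h0, map_zero]))
  · rw [Fermat.Agent.Gateway.Kummer.coeffMap_qExpand, Fermat.Agent.Gateway.Kummer.coeffMap_qExpand, ← map_mul, h4]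
  · rw [Fermat.Agent.Gateway.Kummer.coeffMap_qExpand, Fermat.Agent.Gateway.Kummer.coeffMap_qExpand, ← map_mul, h5]

variable (p : ℕ) [NeZero p] [hp : Fact p.Prime] [CharP k p]

/-- **Reduction of the norm `x ↦ ∏_{b<p} x(ζ^b t)`** on fractions of integral Laurent series:
it is a series in `t^p`, and it reduces to the coefficientwise Frobenius of the reduction of `x`
(evaluated at `t^p`). -/
theorem exists_norm_twist (ζA : Aˣ) (hprim : IsPrimitiveRoot ζA p) (hζ : π ζA = 1)
    {x : LaurentSeries L} {xb : LaurentSeries k} (hx : RedRel A π ⊤ x xb) :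
    ∃ X : LaurentSeries L,
      qExpand L p X
        = ∏ b ∈ Finset.range p, twist ((Units.map (A.subtype : A →* L) ζA) ^ b) x ∧
      RedRel A π ⊤ X (coeffMap (frobenius k p) xb) := by
  obtain ⟨y₁, y₂, _, _, h3, h4, h5⟩ := hx
  obtain ⟨N₁, hN₁⟩ := exists_qExpand_eq_prod_twist hprim y₁
  obtain ⟨N₂, hN₂⟩ := exists_qExpand_eq_prod_twist hprim y₂
  have hζ' : Units.map (π : A →* k) ζA = 1 := Units.ext hζ
  -- reductions of the integral norms
  have hred : ∀ (y N : LaurentSeries A),
      qExpand A p N = ∏ i ∈ Finset.range p, twist (ζA ^ i) y →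
      coeffMap π N = coeffMap (frobenius k p) (coeffMap π y) := by
    intro y N hN
    apply qExpand_injective p
    rw [← Fermat.Agent.Gateway.Kummer.coeffMap_qExpand, hN, map_prod, ← laurent_pow_char]
    have : ∀ b ∈ Finset.range p, coeffMap π (twist (ζA ^ b) y) = coeffMap π y := by
      intro b _
      rw [coeffMap_twist, map_pow, hζ', one_pow, twist_one]
    rw [Finset.prod_congr rfl this, Finset.prod_const, Finset.card_range]
  -- embeddings of the integral norms
  have hemb : ∀ (y N : LaurentSeries A),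
      qExpand A p N = ∏ i ∈ Finset.range p, twist (ζA ^ i) y →
      qExpand L p (coeffMap A.subtype N) = ∏ b ∈ Finset.range p,
        twist ((Units.map (A.subtype : A →* L) ζA) ^ b) (coeffMap A.subtype y) := by
    intro y N hN
    rw [← Fermat.Agent.Gateway.Kummer.coeffMap_qExpand, hN, map_prod]
    refine Finset.prod_congr rfl fun b _ => ?_
    rw [coeffMap_twist, map_pow]
  have hr1 := hred y₁ N₁ hN₁
  have hr2 := hred y₂ N₂ hN₂
  have hFr : ∀ {y : LaurentSeries k}, y ≠ 0 → coeffMap (frobenius k p) y ≠ 0 :=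
    fun hy => coeffMap_ne_zero (frobenius k p).injective hy
  have hN₂0 : coeffMap π N₂ ≠ 0 := by rw [hr2]; exact hFr h3
  have hN₂L : coeffMap A.subtype N₂ ≠ 0 := by
    intro h0
    apply hN₂0
    have : N₂ = 0 := coeffMap_subtype_injective A (by rw [h0, map_zero])
    rw [this, map_zero]
  have hy₂L : coeffMap A.subtype y₂ ≠ 0 := by
    intro h0
    apply h3
    have : y₂ = 0 := coeffMap_subtype_injective A (by rw [h0, map_zero])
    rw [this, map_zero]
  have hxdiv : x = coeffMap A.subtype y₁ / coeffMap A.subtype y₂ := by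
    rw [eq_div_iff hy₂L, h4]
  refine ⟨coeffMap A.subtype N₁ / coeffMap A.subtype N₂, ?_, ⟨N₁, N₂, IntermediateField.mem_top,
    IntermediateField.mem_top, hN₂0, div_mul_cancel₀ _ hN₂L, ?_⟩⟩
  · rw [map_div₀, hemb y₁ N₁ hN₁, hemb y₂ N₂ hN₂, ← Finset.prod_div_distrib]
    refine Finset.prod_congr rfl fun b _ => ?_
    rw [hxdiv, map_div₀]
  · rw [hr1, hr2, ← map_mul, h5]

/-- abstract form of the reduction of the norm formula with a twisted second factor -/
theorem redRel_top_of_normFormula (ζA : Aˣ) (hprim : IsPrimitiveRoot ζA p) (hζ : π ζA = 1)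
    {H U D : LaurentSeries L}
    (hform : qExpand L p H = qExpand L (p * p) U *
      ∏ b ∈ Finset.range p, twist ((Units.map (A.subtype : A →* L) ζA) ^ b) D)
    {ub wb : LaurentSeries k} (hU : RedRel A π ⊤ U ub) {c : L}
    (hD : RedRel A π ⊤ (HahnSeries.C c * D) wb) :
    RedRel A π ⊤ (HahnSeries.C (c ^ p) * H) (qExpand k p ub * coeffMap (frobenius k p) wb) := by
  obtain ⟨X, hX, hXr⟩ := exists_norm_twist p ζA hprim hζ hD
  have hprod : ∏ b ∈ Finset.range p,
      twist ((Units.map (A.subtype : A →* L) ζA) ^ b) (HahnSeries.C c * D)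
      = HahnSeries.C (c ^ p) * ∏ b ∈ Finset.range p,
        twist ((Units.map (A.subtype : A →* L) ζA) ^ b) D := by
    have : ∀ b ∈ Finset.range p,
        twist ((Units.map (A.subtype : A →* L) ζA) ^ b) (HahnSeries.C c * D)
          = HahnSeries.C c * twist ((Units.map (A.subtype : A →* L) ζA) ^ b) D := by
      intro b _
      rw [map_mul, twist_C]
    rw [Finset.prod_congr rfl this, Finset.prod_mul_distrib, Finset.prod_const, Finset.card_range,
      map_pow]
  have hkey : HahnSeries.C (c ^ p) * H = qExpand L p U * X := by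
    apply qExpand_injective p
    rw [map_mul, map_mul, qExpand_C, hform, hX, hprod, qExpand_qExpand]
    ring
  rw [hkey]
  exact (redRel_top_qExpand p hU).mul hXr

end Big

end Fermat.Agent.S48x.Kummer1
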