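/-
P-S48 (Deligne-Serre), block KUMMER1 (helper54): the Eichler-Shimura relation WITH DIAMOND TWIST on
the `m`-torsion of `Pic0` of `laurentBaseChange L F₀`, for an arbitrary model field `F₀ ⊆ ℚ((q))`
(in the application `F₀ = gamma1Field M`), an arbitrary pair of degeneracy maps `α β` into a
field `F'` with the Prelude Hecke inputs, and an `L`-automorphism `δ` (the diamond operator):

  `δ • σ • σ • x - T (σ • x) + p • x = 0`   for Frobenius lifts `σ` at `A ∣ p`, `x ∈ Pic0[m]`,

from
  (C1') `NormQExpFormulaD`: `(Norm_α (β u))(t^p) = u(t^(p²)) * ∏_{b<p} (δ u)(ζ^b t)`,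
  (Hnorm) `GaussNormalisable F₀ A`, (C0) `KummerRedInj F₀ A m`,
  and `δ` commuting with the coefficientwise Galois action.
NO compatibility of `δ` with the reduction is needed.
-/
import Fermat.Agent.S48x.Kummer1.Basic
import Fermat.Agent.S48x.Kummer1.NormTwist

set_option autoImplicit false
set_option linter.style.haveILetI false

noncomputable section

namespace Fermat.Agent.S48x.Kummer1

open ModularCurve AlgebraicCurve HahnSeries Fermat.Agent.Gateway.Kummer

section Upgrade

variable {L : Type*} [Field L] (A : ValuationSubring L)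

theorem coeffMap_subtype_C (a : A) :
    coeffMap A.subtype (HahnSeries.C a) = HahnSeries.C (a : L) := by
  rw [HahnSeries.C_apply, coeffMap_single, HahnSeries.C_apply]
  rfl

theorem coeffMap_residue_C (a : A) :
    coeffMap (IsLocalRing.residue A) (HahnSeries.C a) = HahnSeries.C (IsLocalRing.residue A a) := by
  rw [HahnSeries.C_apply, coeffMap_single, HahnSeries.C_apply]

/-- if `d • P = Q` for integral Laurent series `P, Q` with nonzero reductions, then `d ∈ A` -/
theorem mem_of_C_mul_eq {d : L} {P Q : LaurentSeries A}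
    (h : HahnSeries.C d * coeffMap A.subtype P = coeffMap A.subtype Q)
    (hP : coeffMap (IsLocalRing.residue A) P ≠ 0) : d ∈ A := by
  by_contra hd
  have hinv : d⁻¹ ∈ A := (A.mem_or_inv_mem d).resolve_left hd
  have hd0 : d ≠ 0 := by
    rintro rfl
    exact hd A.zero_mem
  have hPQ : P = HahnSeries.C (⟨d⁻¹, hinv⟩ : A) * Q := by
    apply coeffMap_subtype_injective A
    rw [map_mul, coeffMap_subtype_C, ← h, ← mul_assoc, ← map_mul]
    show _ = HahnSeries.C (d⁻¹ * d) * _
    rw [inv_mul_cancel₀ hd0, map_one, one_mul]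
  have hres : IsLocalRing.residue A (⟨d⁻¹, hinv⟩ : A) ≠ 0 := by
    intro h0
    apply hP
    rw [hPQ, map_mul, coeffMap_residue_C, h0, map_zero, zero_mul]
  have hunit : IsUnit (⟨d⁻¹, hinv⟩ : A) := by
    rw [← IsLocalRing.notMem_maximalIdeal, ← IsLocalRing.residue_eq_zero_iff]
    exact hres
  obtain ⟨e, he⟩ := hunit.exists_left_inv
  apply hd
  have h1 : (e : L) * d⁻¹ = 1 := by
    have := congrArg (Subtype.val) he
    simpa using this
  have h2 : (e : L) = d := by
    field_simp at h1
    exact h1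
  rw [← h2]
  exact e.2

/-- **Upgrade**: an element of `F` which is normalisable inside `F` and which has a nonzero
reduction as a fraction of arbitrary integral Laurent series has the same reduction inside `F`. -/
theorem redRel_of_top {F : IntermediateField L (LaurentSeries L)} {z : LaurentSeries L}
    {zb ub : LaurentSeries (IsLocalRing.ResidueField A)} {c : L}
    (hcz : RedRel A (IsLocalRing.residue A) F (algebraMap L (LaurentSeries L) c * z) ub)
    (hub : ub ≠ 0)
    (hz : RedRel A (IsLocalRing.residue A) ⊤ z zb) (hzb : zb ≠ 0) :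
    RedRel A (IsLocalRing.residue A) F z zb := by
  obtain ⟨y₁, y₂, hy1F, hy2F, hy2, hyL, hyk⟩ := hcz
  obtain ⟨Y₁, Y₂, _, _, hY2, hYL, hYk⟩ := hz
  rw [algebraMap_laurentSeries_eq_single, ← HahnSeries.C_apply] at hyL
  have hy1 : coeffMap (IsLocalRing.residue A) y₁ ≠ 0 := by rw [← hyk]; exact mul_ne_zero hub hy2
  have hY1 : coeffMap (IsLocalRing.residue A) Y₁ ≠ 0 := by rw [← hYk]; exact mul_ne_zero hzb hY2
  have hid : HahnSeries.C c * coeffMap A.subtype (Y₁ * y₂) = coeffMap A.subtype (y₁ * Y₂) := by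
    rw [map_mul, map_mul, ← hYL, ← hyL]
    ring
  have hc0 : c ≠ 0 := by
    rintro rfl
    rw [map_zero, zero_mul] at hid
    have : y₁ * Y₂ = 0 := coeffMap_subtype_injective A (by rw [← hid, map_zero])
    have h0 := congrArg (coeffMap (IsLocalRing.residue A)) this
    rw [map_mul, map_zero] at h0
    exact (mul_ne_zero hy1 hY2) h0
  have hcA : c ∈ A :=
    mem_of_C_mul_eq A hid (by rw [map_mul]; exact mul_ne_zero hY1 hy2)
  have hcinvA : c⁻¹ ∈ A := by
    refine mem_of_C_mul_eq A (d := c⁻¹) (P := y₁ * Y₂) (Q := Y₁ * y₂) ?_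
      (by rw [map_mul]; exact mul_ne_zero hy1 hY2)
    rw [← hid, ← mul_assoc, ← map_mul, inv_mul_cancel₀ hc0, map_one, one_mul]
  have hres : IsLocalRing.residue A (⟨c, hcA⟩ : A) ≠ 0 := by
    intro h0
    have h1 : (⟨c, hcA⟩ : A) * ⟨c⁻¹, hcinvA⟩ = 1 := Subtype.ext (mul_inv_cancel₀ hc0)
    have h2 := congrArg (IsLocalRing.residue A) h1
    rw [map_mul, h0, zero_mul, map_one] at h2
    exact zero_ne_one h2
  have hidA : HahnSeries.C (⟨c, hcA⟩ : A) * (Y₁ * y₂) = y₁ * Y₂ := by
    apply coeffMap_subtype_injective A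
    rw [map_mul, coeffMap_subtype_C]
    exact hid
  have hidk := congrArg (coeffMap (IsLocalRing.residue A)) hidA
  rw [map_mul, map_mul, map_mul, coeffMap_residue_C] at hidk
  refine ⟨y₁, HahnSeries.C (⟨c, hcA⟩ : A) * y₂, hy1F, ?_, ?_, ?_, ?_⟩
  · rw [map_mul, coeffMap_subtype_C]
    refine F.mul_mem ?_ hy2F
    have := F.algebraMap_mem c
    rwa [algebraMap_laurentSeries_eq_single, ← HahnSeries.C_apply] at this
  · rw [map_mul, coeffMap_residue_C]
    refine mul_ne_zero ?_ hy2
    rw [HahnSeries.C_apply]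
    exact fun h => hres (HahnSeries.single_eq_zero_iff.mp h)
  · rw [map_mul, coeffMap_subtype_C, ← hyL]
    ring
  · rw [map_mul, coeffMap_residue_C]
    have : (zb * (HahnSeries.C (IsLocalRing.residue A (⟨c, hcA⟩ : A))
        * coeffMap (IsLocalRing.residue A) y₂) - coeffMap (IsLocalRing.residue A) y₁)
        * coeffMap (IsLocalRing.residue A) Y₂ = 0 := by
      rw [sub_mul, ← hidk, ← hYk]
      ring
    rcases mul_eq_zero.mp this with h0 | h0
    · exact sub_eq_zero.mp h0
    · exact absurd h0 hY2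

end Upgrade

section Hecke

variable {L : Type*} [Field L] [Algebra ℚ L]
variable (F₀ : IntermediateField ℚ (LaurentSeries ℚ))
variable {F' : Type*} [Field F'] [Algebra L F']
variable (α β : laurentBaseChange L F₀ →ₐ[L] F')
variable (p : ℕ) [NeZero p]
variable (δ : laurentBaseChange L F₀ ≃ₐ[L] laurentBaseChange L F₀)

/-- the multiplicative Hecke operator on functions `Norm_α (β u)` for a general pair of degeneracy
maps -/
def heckeFun (u : laurentBaseChange L F₀) : laurentBaseChange L F₀ :=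
  normAlong α (β u)

/-- (C1') the `q`-expansion norm formula WITH DIAMOND TWIST, with `t^p = q`:
`(heckeFun u)(t^p) = u(t^(p²)) * ∏_{b<p} (δ u)(ζ^b t)`. -/
def NormQExpFormulaD (ζ : Lˣ) : Prop :=
  ∀ u : laurentBaseChange L F₀,
    qExpand L p ((heckeFun F₀ α β u : laurentBaseChange L F₀) : LaurentSeries L)
      = qExpand L (p * p) (u : LaurentSeries L)
        * ∏ b ∈ Finset.range p, twist (ζ ^ b) ((δ u : laurentBaseChange L F₀) : LaurentSeries L)

end Hecke

section Main

variable {L : Type*} [Field L] [Algebra ℚ L]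
variable (F₀ : IntermediateField ℚ (LaurentSeries ℚ))
variable {F' : Type*} [Field F'] [Algebra L F'] [HasPrincipalDivisors L F']
variable (α β : laurentBaseChange L F₀ →ₐ[L] F')
variable (p : ℕ) [NeZero p] [hp : Fact p.Prime]
variable (δ : laurentBaseChange L F₀ ≃ₐ[L] laurentBaseChange L F₀)

set_option maxHeartbeats 1600000 in
/-- **Eichler-Shimura relation with diamond twist on `m`-torsion**:
`δ σ² - T σ + p = 0` for Frobenius lifts `σ`, `T = α_* β^*`. -/
theorem frobenius_quadratic_of_torsion_diamond {m : ℕ} (hm : m ≠ 0) (A : ValuationSubring L)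
    (hA : A.LiesOverPrime p)
    (hβ : β.toRingHom.IsIntegral) (hα : α.toRingHom.IsIntegral)
    (hFI : FundamentalIdentityAlong L β hβ) (hfin : FiniteAlong L α)
    (hN : NormFormulaAlong L α hfin)
    (ζA : Aˣ) (hprim : IsPrimitiveRoot ζA p) (hζ : IsLocalRing.residue A ζA = 1)
    (hC1 : NormQExpFormulaD F₀ α β p δ (Units.map (A.subtype : A →* L) ζA))
    (hδ : ∀ (τ : L ≃ₐ[ℚ] L) (u : laurentBaseChange L F₀),
      δ (arithmeticGalois F₀ τ • u) = arithmeticGalois F₀ τ • δ u)
    (hnorm : GaussNormalisable F₀ A) (hC0 : KummerRedInj F₀ A m)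
    (σ : L ≃ₐ[ℚ] L) (hσ : A.IsFrobeniusAt σ p)
    {x : Pic0 L (laurentBaseChange L F₀)} (hx : (m : ℤ) • x = 0) :
    SemilinearAut.ofAlgAut δ • (σ • σ • x)
      - Pic0.correspondence β α hβ hα hFI hfin hN (σ • x) + p • x = 0 := by
  haveI : CharP (IsLocalRing.ResidueField A) p := charP_residueField hp.out A hA
  set g := arithmeticGalois F₀ σ with hg
  set d := SemilinearAut.ofAlgAut δ with hd
  set T := Pic0.correspondence β α hβ hα hFI hfin hN with hT
  show d • (g • g • x) - T (g • x) + p • x = 0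
  obtain ⟨u₀, hu₀⟩ := exists_isKummerRep hx
  obtain ⟨c₀, hc₀, ub, hub, hred⟩ := hnorm u₀ hu₀.ne_zero
  have hu := hu₀.const_mul hc₀
  obtain ⟨u, hudef⟩ : ∃ u : laurentBaseChange L F₀,
      u = algebraMap L (laurentBaseChange L F₀) c₀ * u₀ :=
    ⟨algebraMap L (laurentBaseChange L F₀) c₀ * u₀, rfl⟩
  rw [← hudef] at hu hred
  obtain ⟨v, hvdef⟩ : ∃ v : laurentBaseChange L F₀, v = g • u := ⟨g • u, rfl⟩
  -- Kummer representatives
  have hv : IsKummerRep m (g • x) v := by rw [hvdef]; exact hu.smul g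
  have h1 : IsKummerRep m (d • (g • g • x)) (d • (g • v)) := (hv.smul g).smul d
  have h2 : IsKummerRep m (T (g • x)) (heckeFun F₀ α β v) :=
    hv.correspondence β α hβ hα hFI hfin hN
  have h3 : IsKummerRep m (p • x) (u ^ p) := hu.pow p
  have h4 : IsKummerRep m (d • (g • g • x) - T (g • x) + p • x)
      ((d • (g • v)) / heckeFun F₀ α β v * u ^ p) := (h1.div h2).mul h3
  -- reductions
  set Fr := coeffMap (frobenius (IsLocalRing.ResidueField A) p) with hFr
  have hFr_ne : ∀ {y : LaurentSeries (IsLocalRing.ResidueField A)}, y ≠ 0 → Fr y ≠ 0 :=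
    fun hy => coeffMap_ne_zero (frobenius (IsLocalRing.ResidueField A) p).injective hy
  have r1 : RedRel A (IsLocalRing.residue A) (laurentBaseChange L F₀)
      ((v : laurentBaseChange L F₀) : LaurentSeries L) (Fr ub) := by
    rw [hvdef]; exact redRel_frobenius F₀ A σ hσ hred
  have hv0 : v ≠ 0 := hv.ne_zero
  have hδv0 : δ v ≠ 0 := (map_ne_zero δ).mpr hv0
  -- normalise `δ v`
  obtain ⟨c, hc, wb, hwb, hredw⟩ := hnorm (δ v) hδv0
  obtain ⟨w, hwdef⟩ : ∃ w : laurentBaseChange L F₀,
      w = algebraMap L (laurentBaseChange L F₀) c * δ v :=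
    ⟨algebraMap L (laurentBaseChange L F₀) c * δ v, rfl⟩
  rw [← hwdef] at hredw
  have r2 : RedRel A (IsLocalRing.residue A) (laurentBaseChange L F₀)
      ((g • w : laurentBaseChange L F₀) : LaurentSeries L) (Fr wb) :=
    redRel_frobenius F₀ A σ hσ hredw
  -- the Hecke operator
  have hwcoe : ((w : laurentBaseChange L F₀) : LaurentSeries L)
      = HahnSeries.C c * ((δ v : laurentBaseChange L F₀) : LaurentSeries L) := by
    rw [hwdef, HahnSeries.C_apply, ← algebraMap_laurentSeries_eq_single]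
    rfl
  have r3 : RedRel A (IsLocalRing.residue A) ⊤
      (HahnSeries.C (c ^ p) * ((heckeFun F₀ α β v : laurentBaseChange L F₀) : LaurentSeries L))
      (qExpand (IsLocalRing.ResidueField A) p (Fr ub) * Fr wb) :=
    redRel_top_of_normFormula p ζA hprim hζ (hC1 v) (redRel_top r1)
      (by rw [← hwcoe]; exact redRel_top hredw)
  rw [← laurent_pow_char] at r3
  have r4 : RedRel A (IsLocalRing.residue A) (laurentBaseChange L F₀)
      ((u ^ p : laurentBaseChange L F₀) : LaurentSeries L) (ub ^ p) := hred.pow p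
  -- the normalised representative
  obtain ⟨H, hHdef⟩ : ∃ H : laurentBaseChange L F₀,
      H = algebraMap L (laurentBaseChange L F₀) (c ^ p) * heckeFun F₀ α β v :=
    ⟨algebraMap L (laurentBaseChange L F₀) (c ^ p) * heckeFun F₀ α β v, rfl⟩
  have hHcoe : ((H : laurentBaseChange L F₀) : LaurentSeries L)
      = HahnSeries.C (c ^ p)
        * ((heckeFun F₀ α β v : laurentBaseChange L F₀) : LaurentSeries L) := by
    rw [hHdef, HahnSeries.C_apply, ← algebraMap_laurentSeries_eq_single]
    rfl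
  have hne : ub ^ p * Fr wb ≠ 0 := mul_ne_zero (pow_ne_zero _ hub) (hFr_ne hwb)
  obtain ⟨z', hz'def⟩ : ∃ z' : laurentBaseChange L F₀, z' = (g • w) / H * u ^ p :=
    ⟨(g • w) / H * u ^ p, rfl⟩
  have hredz_top : RedRel A (IsLocalRing.residue A) ⊤
      ((z' : laurentBaseChange L F₀) : LaurentSeries L) 1 := by
    have r3' : RedRel A (IsLocalRing.residue A) ⊤
        ((H : laurentBaseChange L F₀) : LaurentSeries L) (ub ^ p * Fr wb) := by
      rw [hHcoe]; exact r3
    have h5 := ((redRel_top r2).div r3' hne).mul (redRel_top r4)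
    rw [hz'def]
    have e : Fr wb / (ub ^ p * Fr wb) * ub ^ p = 1 := by
      have a1 : ub ^ p ≠ 0 := pow_ne_zero _ hub
      have a2 : Fr wb ≠ 0 := hFr_ne hwb
      field_simp
    rw [e] at h5
    exact h5
  -- `z'` is a constant multiple of the Kummer representative
  have hH0 : heckeFun F₀ α β v ≠ 0 := h2.ne_zero
  have hgw : g • w = algebraMap L (laurentBaseChange L F₀) (σ c) * (d • (g • v)) := by
    have e1 : d • (g • v) = g • δ v := hδ σ v
    rw [hwdef, smul_mul', SemilinearAut.smul_algebraMap, e1]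
    rfl
  have hcp : c ^ p ≠ 0 := pow_ne_zero _ hc
  have hσc : σ c ≠ 0 := (map_ne_zero σ).mpr hc
  have hz'eq : z' = algebraMap L (laurentBaseChange L F₀) (σ c / c ^ p)
      * ((d • (g • v)) / heckeFun F₀ α β v * u ^ p) := by
    rw [hz'def, hgw, hHdef, map_div₀]
    have b1 : algebraMap L (laurentBaseChange L F₀) (c ^ p) ≠ 0 := (map_ne_zero _).mpr hcp
    field_simp
  have h4' : IsKummerRep m (d • (g • g • x) - T (g • x) + p • x) z' := by
    rw [hz'eq]
    exact h4.const_mul (div_ne_zero hσc hcp)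
  -- upgrade the reduction to `F`
  obtain ⟨c₁, hc₁, zb, hzb, hredz1⟩ := hnorm z' h4'.ne_zero
  have hredz : RedRel A (IsLocalRing.residue A) (laurentBaseChange L F₀)
      ((z' : laurentBaseChange L F₀) : LaurentSeries L) 1 :=
    redRel_of_top A (c := c₁) hredz1 hzb hredz_top one_ne_zero
  obtain ⟨c', w', hcw⟩ := hC0 _ h4'.ne_zero (fun P => h4'.dvd_ord P) hredz
  exact h4'.eq_zero_of_eq_const_mul_pow hm hcw

end Main

end Fermat.Agent.S48x.Kummer1
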