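/-
P-S48 (Deligne-Serre), block KUMMER1 (helper54): export shapes.

* `frobenius_quadratic_of_torsion_diamond_root`: the Eichler-Shimura relation with diamond twist
  for a primitive `p`-th root of unity `ζ : Lˣ` (no choice of a unit of `A` needed);
* `frobenius_quadratic_of_torsion_diamond_inv`: the same relation multiplied by `δ⁻¹`:
  `σ² x - δ⁻¹ T (σ x) + p δ⁻¹ x = 0`  — the shape of `TorsionHeckeData1.eichlerShimura`
  with `hecke (Tel p) := δ⁻¹ ∘ T`, `hecke (Del ·) := δ⁻¹`;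
* `torsionUnramified1`: the clone of E5 of `Gateway/Kummer/Export.lean` for a general model field
  (E7 = `torsionGalLevel1` is in helper78's `Kummer1/Unram.lean`).
-/
import Fermat.Agent.S48x.Kummer1.ES
import Fermat.Agent.Gateway.Kummer.Export

set_option autoImplicit false
set_option linter.style.haveILetI false

noncomputable section

namespace Fermat.Agent.S48x.Kummer1

open ModularCurve AlgebraicCurve HahnSeries Fermat.Agent.Gateway.Kummer

local notation "Qb" => AlgebraicClosure ℚ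
local notation "Γℚ" => (AlgebraicClosure ℚ ≃ₐ[ℚ] AlgebraicClosure ℚ)

section Root

variable {L : Type*} [Field L]

/-- a primitive `p`-th root of unity of `L` is a unit of every valuation subring of residue
characteristic `p`, primitive there, and reduces to `1` -/
theorem exists_unit_of_isPrimitiveRoot (A : ValuationSubring L) {p : ℕ} (hp : p.Prime)
    [CharP (IsLocalRing.ResidueField A) p] (ζ : Lˣ) (hζ : IsPrimitiveRoot ζ p) :
    ∃ ζA : Aˣ, Units.map (A.subtype : A →* L) ζA = ζ ∧ IsPrimitiveRoot ζA p ∧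
      IsLocalRing.residue A ζA = 1 := by
  obtain ⟨ζA, h1, h2⟩ := exists_unit_of_pow_eq_one A hp ζ hζ.pow_eq_one
  refine ⟨ζA, h1, ?_, h2⟩
  have hinj : Function.Injective (Units.map (A.subtype : A →* L)) :=
    Units.map_injective Subtype.val_injective
  rw [← h1] at hζ
  exact IsPrimitiveRoot.of_map_of_injective hζ hinj

end Root

section Main

variable {L : Type*} [Field L] [Algebra ℚ L]
variable (F₀ : IntermediateField ℚ (LaurentSeries ℚ))
variable {F' : Type*} [Field F'] [Algebra L F'] [HasPrincipalDivisors L F']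
variable (α β : laurentBaseChange L F₀ →ₐ[L] F')
variable (p : ℕ) [NeZero p] [hp : Fact p.Prime]
variable (δ : laurentBaseChange L F₀ ≃ₐ[L] laurentBaseChange L F₀)

/-- `δ` commutes with the coefficientwise Galois action (automatic when `δ` is defined
over `ℚ`) -/
def DiamondGaloisCommute : Prop :=
  ∀ (τ : L ≃ₐ[ℚ] L) (u : laurentBaseChange L F₀),
    δ (arithmeticGalois F₀ τ • u) = arithmeticGalois F₀ τ • δ u

set_option maxHeartbeats 800000 in
/-- Eichler-Shimura with diamond twist, for a primitive `p`-th root of unity of `L`. -/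
theorem frobenius_quadratic_of_torsion_diamond_root {m : ℕ} (hm : m ≠ 0)
    (A : ValuationSubring L) (hA : A.LiesOverPrime p)
    (hβ : β.toRingHom.IsIntegral) (hα : α.toRingHom.IsIntegral)
    (hFI : FundamentalIdentityAlong L β hβ) (hfin : FiniteAlong L α)
    (hN : NormFormulaAlong L α hfin)
    (ζ : Lˣ) (hprim : IsPrimitiveRoot ζ p)
    (hC1 : NormQExpFormulaD F₀ α β p δ ζ)
    (hδ : DiamondGaloisCommute F₀ δ)
    (hnorm : GaussNormalisable F₀ A) (hC0 : KummerRedInj F₀ A m)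
    (σ : L ≃ₐ[ℚ] L) (hσ : A.IsFrobeniusAt σ p)
    {x : Pic0 L (laurentBaseChange L F₀)} (hx : (m : ℤ) • x = 0) :
    SemilinearAut.ofAlgAut δ • (σ • σ • x)
      - Pic0.correspondence β α hβ hα hFI hfin hN (σ • x) + p • x = 0 := by
  haveI : CharP (IsLocalRing.ResidueField A) p := charP_residueField hp.out A hA
  obtain ⟨ζA, h1, h2, h3⟩ := exists_unit_of_isPrimitiveRoot A hp.out ζ hprim
  exact frobenius_quadratic_of_torsion_diamond F₀ α β p δ hm A hA hβ hα hFI hfin hN ζA h2 h3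
    (h1 ▸ hC1) hδ hnorm hC0 σ hσ hx

set_option maxHeartbeats 800000 in
/-- **Shape of `TorsionHeckeData1.eichlerShimura`**: `σ² x - δ⁻¹ T (σ x) + p δ⁻¹ x = 0`. -/
theorem frobenius_quadratic_of_torsion_diamond_inv {m : ℕ} (hm : m ≠ 0)
    (A : ValuationSubring L) (hA : A.LiesOverPrime p)
    (hβ : β.toRingHom.IsIntegral) (hα : α.toRingHom.IsIntegral)
    (hFI : FundamentalIdentityAlong L β hβ) (hfin : FiniteAlong L α)
    (hN : NormFormulaAlong L α hfin)
    (ζ : Lˣ) (hprim : IsPrimitiveRoot ζ p)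
    (hC1 : NormQExpFormulaD F₀ α β p δ ζ)
    (hδ : DiamondGaloisCommute F₀ δ)
    (hnorm : GaussNormalisable F₀ A) (hC0 : KummerRedInj F₀ A m)
    (σ : L ≃ₐ[ℚ] L) (hσ : A.IsFrobeniusAt σ p)
    {x : Pic0 L (laurentBaseChange L F₀)} (hx : (m : ℤ) • x = 0) :
    σ • σ • x
      - (SemilinearAut.ofAlgAut δ)⁻¹ • Pic0.correspondence β α hβ hα hFI hfin hN (σ • x)
      + p • ((SemilinearAut.ofAlgAut δ)⁻¹ • x) = 0 := by
  have h := frobenius_quadratic_of_torsion_diamond_root F₀ α β p δ hm A hA hβ hα hFI hfin hN ζ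
    hprim hC1 hδ hnorm hC0 σ hσ hx
  have h2 := congrArg (fun y => (SemilinearAut.ofAlgAut δ)⁻¹ • y) h
  simp only [smul_add, smul_sub, inv_smul_smul] at h2
  have h3 : (SemilinearAut.ofAlgAut δ)⁻¹ • p • x = p • ((SemilinearAut.ofAlgAut δ)⁻¹ • x) :=
    map_nsmul (DistribSMul.toAddMonoidHom (Pic0 L (laurentBaseChange L F₀))
      (SemilinearAut.ofAlgAut δ)⁻¹) p x
  rw [h3] at h2
  have h0 := smul_zero (A := Pic0 L (laurentBaseChange L F₀)) (SemilinearAut.ofAlgAut δ)⁻¹
  exact h2.trans h0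

end Main

section Export

variable (F₀ : IntermediateField ℚ (LaurentSeries ℚ))

/-- E5 for a general model field: inertia at the primes outside `bad` acts trivially on the
torsion of order prime to the residue characteristic. -/
theorem torsionUnramified1 (bad : ℕ → Prop)
    (hnorm : ∀ ℓ : ℕ, ℓ.Prime → ¬ bad ℓ → ∀ A : ValuationSubring Qb, A.LiesOverPrime ℓ →
      GaussNormalisable F₀ A)
    (hC0 : ∀ m ℓ : ℕ, ℓ.Prime → ¬ bad ℓ → m ≠ 0 → ¬ ℓ ∣ m → ∀ A : ValuationSubring Qb,
      A.LiesOverPrime ℓ → KummerRedInj F₀ A m) :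
    ∀ (m ℓ : ℕ), ℓ.Prime → ¬ bad ℓ → m ≠ 0 → ¬ ℓ ∣ m → ∀ A : ValuationSubring Qb,
      A.LiesOverPrime ℓ → ∀ σ ∈ A.inertiaSubgroupIn ℚ,
      ∀ x : Pic0 Qb (laurentBaseChange Qb F₀), m • x = 0 → σ • x = x := by
  intro m ℓ hℓ hbad hm hdvd A hA σ hσ x hx
  have hx' : (m : ℤ) • x = 0 := by rw [natCast_zsmul]; exact hx
  exact inertia_smul_eq_of_torsion F₀ A hm (hnorm ℓ hℓ hbad A hA) (hC0 m ℓ hℓ hbad hm hdvd A hA)
    σ hσ hx'

end Export

end Fermat.Agent.S48x.Kummer1
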