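/-
P-S48 (Deligne–Serre), G1, block KUMMER1 (helper78): the generic-`F₀` clone of
`Gateway/Kummer/Final.lean` + `Gateway/Kummer/Export.lean`, parts (K1) (triviality of inertia on
torsion) and (E7) (finite level), for the function field
`laurentBaseChange L F₀`, `F₀ : IntermediateField ℚ (LaurentSeries ℚ)` ARBITRARY.

* `GaussNormalisable F₀ A`, `KummerRedInj F₀ A m` : the two deep inputs (Hnorm), (C0), verbatim
  the Gateway definitions with `FF L N` replaced by `laurentBaseChange L F₀`;
* `redRel_decomposition`, `redRel_frobenius`, `redRel_inertia` : the Galois action on reductions;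
* `inertia_smul_eq_of_torsion` : (K1);
* `galPic F₀ : Γℚ →* AddMonoid.End (Pic0 Qb (laurentBaseChange Qb F₀))` : the Galois action as a
  homomorphism, and the export shapes `galPic_level` (= `JSide1.gal_level`), `galPic_unram`
  (= `JSide1.unram`), `torsionGalLevel1` (E7).
-/
import Fermat.Agent.Gateway.Kummer.Final
import Fermat.Agent.Gateway.Kummer.GalLevel

set_option autoImplicit false
set_option linter.style.haveILetI false

noncomputable section

namespace Fermat.Agent.S48x.Kummer1

open ModularCurve AlgebraicCurve HahnSeries Fermat.Agent.Gateway.Kummer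

local notation "Qb" => AlgebraicClosure ℚ
local notation "Γℚ" => (AlgebraicClosure ℚ ≃ₐ[ℚ] AlgebraicClosure ℚ)

section Galois

variable {L : Type*} [Field L] [Algebra ℚ L] (F₀ : IntermediateField ℚ (LaurentSeries ℚ))
  (A : ValuationSubring L)

/-- elements of the decomposition group act compatibly on reductions -/
theorem redRel_decomposition (σ : L ≃ₐ[ℚ] L) (hσ : σ ∈ A.decompositionSubgroup ℚ)
    {u : LaurentSeries L} {ū : LaurentSeries (IsLocalRing.ResidueField A)}
    (hu : RedRel A (IsLocalRing.residue A) (laurentBaseChange L F₀) u ū) :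
    RedRel A (IsLocalRing.residue A) (laurentBaseChange L F₀) (coeffMap (σ : L →+* L) u)
      (coeffMap (MulSemiringAction.toRingHom (A.decompositionSubgroup ℚ)
        (IsLocalRing.ResidueField A) ⟨σ, hσ⟩) ū) := by
  refine hu.map (σ : L →+* L)
    (MulSemiringAction.toRingHom (A.decompositionSubgroup ℚ) A ⟨σ, hσ⟩) _ ?_ ?_ ?_
  · intro a
    rfl
  · intro a
    rfl
  · intro x hx
    exact coeffMap_mem_laurentBaseChange σ hx

/-- a Frobenius lift acts on reductions through the coefficientwise Frobenius -/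
theorem redRel_frobenius {ℓ : ℕ} [ExpChar (IsLocalRing.ResidueField A) ℓ] (σ : L ≃ₐ[ℚ] L)
    (hσ : A.IsFrobeniusAt σ ℓ)
    {u : LaurentSeries L} {ū : LaurentSeries (IsLocalRing.ResidueField A)}
    (hu : RedRel A (IsLocalRing.residue A) (laurentBaseChange L F₀) u ū) :
    RedRel A (IsLocalRing.residue A) (laurentBaseChange L F₀) (coeffMap (σ : L →+* L) u)
      (coeffMap (frobenius (IsLocalRing.ResidueField A) ℓ) ū) := by
  have h := redRel_decomposition F₀ A σ hσ.mem_decompositionSubgroup hu
  have he : MulSemiringAction.toRingHom (A.decompositionSubgroup ℚ)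
      (IsLocalRing.ResidueField A) ⟨σ, hσ.mem_decompositionSubgroup⟩
      = frobenius (IsLocalRing.ResidueField A) ℓ := by
    ext x
    rw [MulSemiringAction.toRingHom_apply, hσ.smul_residue_eq, frobenius_def]
  rwa [he] at h

/-- an element of the inertia group acts trivially on reductions -/
theorem redRel_inertia (σ : L ≃ₐ[ℚ] L) (hσ : σ ∈ A.inertiaSubgroupIn ℚ)
    {u : LaurentSeries L} {ū : LaurentSeries (IsLocalRing.ResidueField A)}
    (hu : RedRel A (IsLocalRing.residue A) (laurentBaseChange L F₀) u ū) :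
    RedRel A (IsLocalRing.residue A) (laurentBaseChange L F₀) (coeffMap (σ : L →+* L) u) ū := by
  obtain ⟨τ, hτ, rfl⟩ := hσ
  have h := redRel_decomposition F₀ A (τ : L ≃ₐ[ℚ] L) τ.2 hu
  have he : MulSemiringAction.toRingHom (A.decompositionSubgroup ℚ)
      (IsLocalRing.ResidueField A) ⟨(τ : L ≃ₐ[ℚ] L), τ.2⟩
      = RingHom.id _ := by
    ext x
    have := (MonoidHom.mem_ker).mp hτ
    have h2 := congrArg (fun e : RingAut (IsLocalRing.ResidueField A) => e x) this
    simpa using h2
  rw [he] at h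
  simpa using h

end Galois

section Main

variable {L : Type*} [Field L] [Algebra ℚ L] (F₀ : IntermediateField ℚ (LaurentSeries ℚ))
  (A : ValuationSubring L)

/-- (Hnorm) every nonzero function has a nonzero reduction after scaling by a constant -/
def GaussNormalisable : Prop :=
  ∀ u : laurentBaseChange L F₀, u ≠ 0 → ∃ c : L, c ≠ 0 ∧
    ∃ ū : LaurentSeries (IsLocalRing.ResidueField A), ū ≠ 0 ∧
      RedRel A (IsLocalRing.residue A) (laurentBaseChange L F₀)
        (((algebraMap L (laurentBaseChange L F₀) c * u : laurentBaseChange L F₀)) :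
          LaurentSeries L) ū

/-- (C0) injectivity of reduction on Kummer classes of exponent `m` -/
def KummerRedInj (m : ℕ) : Prop :=
  ∀ z : laurentBaseChange L F₀, z ≠ 0 →
    (∀ P : Place L (laurentBaseChange L F₀), (m : ℤ) ∣ P.ord z) →
    RedRel A (IsLocalRing.residue A) (laurentBaseChange L F₀) (z : LaurentSeries L) 1 →
    ∃ (c : L) (w : laurentBaseChange L F₀),
      z = algebraMap L (laurentBaseChange L F₀) c * w ^ m

/-- **(K1)** Triviality of inertia on `m`-torsion. -/
theorem inertia_smul_eq_of_torsion {m : ℕ} (hm : m ≠ 0)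
    (hnorm : GaussNormalisable F₀ A) (hC0 : KummerRedInj F₀ A m)
    (σ : L ≃ₐ[ℚ] L) (hσ : σ ∈ A.inertiaSubgroupIn ℚ)
    {x : Pic0 L (laurentBaseChange L F₀)} (hx : (m : ℤ) • x = 0) : σ • x = x := by
  set g := arithmeticGalois F₀ σ with hg
  show g • x = x
  obtain ⟨u₀, hu₀⟩ := exists_isKummerRep hx
  obtain ⟨c, hc, ū, hū, hred⟩ := hnorm u₀ hu₀.ne_zero
  have hu := hu₀.const_mul hc
  set u : laurentBaseChange L F₀ := algebraMap L (laurentBaseChange L F₀) c * u₀ with hudef
  have h4 : IsKummerRep m (g • x - x) ((g • u) / u) := (hu.smul g).div hu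
  have hredz : RedRel A (IsLocalRing.residue A) (laurentBaseChange L F₀)
      (((g • u) / u : laurentBaseChange L F₀) : LaurentSeries L) 1 := by
    have h1 := redRel_inertia F₀ A σ hσ hred
    have h2 := h1.div hred hū
    rw [div_self hū] at h2
    exact h2
  obtain ⟨c', w, hcw⟩ := hC0 _ h4.ne_zero (fun P => h4.dvd_ord P) hredz
  exact sub_eq_zero.mp (h4.eq_zero_of_eq_const_mul_pow hm hcw)

end Main

/-! ### Export shapes over `ℚ̄` -/

section Export

variable (F₀ : IntermediateField ℚ (LaurentSeries ℚ))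

/-- The Galois action on `Pic0` of the base-changed function field, as a homomorphism. -/
def galPic : Γℚ →* AddMonoid.End (Pic0 Qb (laurentBaseChange Qb F₀)) :=
  DistribMulAction.toAddMonoidEnd Γℚ (Pic0 Qb (laurentBaseChange Qb F₀))

@[simp]
theorem galPic_apply (σ : Γℚ) (x : Pic0 Qb (laurentBaseChange Qb F₀)) :
    galPic F₀ σ x = σ • x := rfl

/-- **finite level, element form** (shape of `JSide1.gal_level`): every torsion class is fixed by
the automorphisms fixing a suitable number field. -/
theorem galPic_level {m : ℕ} (hm : m ≠ 0) (x : Pic0 Qb (laurentBaseChange Qb F₀))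
    (hx : m • x = 0) :
    ∃ K : IntermediateField ℚ Qb, FiniteDimensional ℚ K ∧
      ∀ σ : Γℚ, (∀ a ∈ K, σ a = a) → galPic F₀ σ x = x := by
  haveI : Algebra.IsAlgebraic ℚ Qb := AlgebraicClosure.isAlgebraic ℚ
  have hx' : (m : ℤ) • x = 0 := by rw [natCast_zsmul]; exact hx
  exact exists_finiteDimensional_fixing_class (L := Qb) F₀ hm hx'

/-- **(E7)** finite level of the whole `m`-torsion, from its finiteness. -/
theorem torsionGalLevel1
    (hfin : ∀ m : ℕ, 0 < m → {x : Pic0 Qb (laurentBaseChange Qb F₀) | m • x = 0}.Finite) :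
    ∀ m : ℕ, 0 < m → ∃ K : IntermediateField ℚ Qb, FiniteDimensional ℚ K ∧
      ∀ σ : Γℚ, (∀ x ∈ K, σ x = x) →
        ∀ x : Pic0 Qb (laurentBaseChange Qb F₀), m • x = 0 → σ • x = x := by
  intro m hm
  have hfin' : {x : Pic0 Qb (laurentBaseChange Qb F₀) | (m : ℤ) • x = 0}.Finite := by
    refine (hfin m hm).subset fun x hx => ?_
    simpa [natCast_zsmul] using hx
  haveI : Algebra.IsAlgebraic ℚ Qb := AlgebraicClosure.isAlgebraic ℚ
  obtain ⟨K, hK, hfix⟩ :=
    exists_finiteDimensional_fixing_torsion (L := Qb) F₀ hm.ne' hfin'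
  exact ⟨K, hK, fun σ hσ x hx => hfix σ hσ x (by rw [natCast_zsmul]; exact hx)⟩

/-- **unramifiedness** (shape of `JSide1.unram`): the inertia groups at the primes outside `S` act
trivially on the `ℓ`-power torsion, from (Hnorm) and (C0) at these primes. -/
theorem galPic_unram (S : Finset ℕ) {ℓ : ℕ} (hℓ : ℓ ≠ 0)
    (hnorm : ∀ q : ℕ, q.Prime → q ∉ S → ∀ A : ValuationSubring Qb, A.LiesOverPrime q →
      GaussNormalisable F₀ A)
    (hC0 : ∀ n q : ℕ, q.Prime → q ∉ S → ∀ A : ValuationSubring Qb, A.LiesOverPrime q →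
      KummerRedInj F₀ A (ℓ ^ n)) :
    ∀ (n q : ℕ), q.Prime → q ∉ S → ∀ A : ValuationSubring Qb, A.LiesOverPrime q →
      ∀ τ ∈ A.inertiaSubgroupIn ℚ, ∀ x : Pic0 Qb (laurentBaseChange Qb F₀),
        ℓ ^ n • x = 0 → galPic F₀ τ x = x := by
  intro n q hq hqS A hA τ hτ x hx
  have hm : ℓ ^ n ≠ 0 := pow_ne_zero n hℓ
  have hx' : ((ℓ ^ n : ℕ) : ℤ) • x = 0 := by rw [natCast_zsmul]; exact hx
  exact inertia_smul_eq_of_torsion F₀ A hm (hnorm q hq hqS A hA) (hC0 n q hq hqS A hA) τ hτ hx'

end Export

end Fermat.Agent.S48x.Kummer1
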