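/-
P-S48 (Deligne-Serre), Kummer1 (K2), auxiliary file (helper16, second hand for helper47):
reduction of the `q`-expansion norm formula with diamond at the level of Laurent series
(`RedRel` over `F = ⊤`).

* `redRel_top_of_qExpand`  : descent of `RedRel` along `q ↦ q ^ n`
* `redRel_top_twist`, `redRel_top_prod_twist` : `RedRel` and the substitutions `t ↦ ζ t`, `ζ ≡ 1`
* `redRel_top_qExpand`     : `RedRel` and `q ↦ q ^ n`
* `redRel_top_of_normFormula` : if `T(t^p) = v(t^(p²)) * ∏_{b<p} d(ζ^b t)`, `v ↦ v̄`, `d ↦ w̄`, then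
  `T ↦ v̄(q^p) * Fr(w̄)`.
-/
import Mathlib
import Fermat.Agent.Gateway.Kummer.RedRel
import Fermat.Agent.Gateway.Kummer.Twist
import Fermat.Agent.Gateway.Kummer.LaurentFrob

set_option autoImplicit false

noncomputable section

namespace Fermat.Agent.S48x.Kummer1.ESAux

open ModularCurve HahnSeries Fermat.Agent.Gateway.Kummer

/-! ### Sections of a Laurent series along the residue classes modulo `n` -/

section Sections

variable {R S : Type*} [CommRing R] [CommRing S] (n : ℕ) [NeZero n]

theorem bddBelow_sec (r : ℤ) (Y : LaurentSeries R) :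
    BddBelow (Function.support fun m : ℤ => Y.coeff (n * m + r)) := by
  by_cases hY : Y = 0
  · subst hY
    refine ⟨0, fun m hm => ?_⟩
    simp at hm
  refine ⟨-(|Y.order| + |r|), fun m hm => ?_⟩
  have hm' : Y.coeff (n * m + r) ≠ 0 := hm
  have h1 : Y.order ≤ n * m + r := HahnSeries.order_le_of_coeff_ne_zero hm'
  have hn : (1 : ℤ) ≤ n := by exact_mod_cast Nat.one_le_iff_ne_zero.mpr (NeZero.ne n)
  have h2 := neg_abs_le Y.order
  have h3 := le_abs_self r
  by_contra hlt
  push Not at hlt
  have hm0 : m < 0 := by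
    have := abs_nonneg Y.order
    have := abs_nonneg r
    linarith
  nlinarith

/-- the series `∑ Y_{n m + r} q^m` -/
def sec (r : ℤ) (Y : LaurentSeries R) : LaurentSeries R :=
  HahnSeries.ofSuppBddBelow (fun m : ℤ => Y.coeff (n * m + r)) (bddBelow_sec n r Y)

@[simp]
theorem sec_coeff (r : ℤ) (Y : LaurentSeries R) (m : ℤ) :
    (sec n r Y).coeff m = Y.coeff (n * m + r) := rfl

theorem coeffMap_sec (f : R →+* S) (r : ℤ) (Y : LaurentSeries R) :
    coeffMap f (sec n r Y) = sec n r (coeffMap f Y) := by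
  ext m
  simp only [coeffMap_coeff, sec_coeff]

/-- the coefficients of `∑_{s<n} t^s U_s(t^n)` -/
theorem coeff_decomp (U : ℕ → LaurentSeries R) {r : ℕ} (hr : r < n) (m : ℤ) :
    (∑ s ∈ Finset.range n, single (s : ℤ) (1 : R) * qExpand R n (U s)).coeff (n * m + r)
      = (U r).coeff m := by
  rw [← HahnSeries.coeff.addMonoidHom_apply, map_sum]
  simp only [HahnSeries.coeff.addMonoidHom_apply]
  rw [Finset.sum_eq_single r]
  · rw [coeff_single_mul, one_mul]
    have : (n : ℤ) * m + r - r = n * m := by ring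
    rw [this, qExpand_coeff_mul]
  · intro s hs hsr
    rw [coeff_single_mul, one_mul]
    refine qExpand_coeff_of_not_dvd n _ ?_
    intro hdvd
    have hs' : s < n := Finset.mem_range.mp hs
    have h1 : (n : ℤ) ∣ (r : ℤ) - s := by
      have : (n : ℤ) * m + r - s = n * m + (r - s) := by ring
      rw [this] at hdvd
      exact (Int.dvd_add_right (Dvd.intro m rfl)).mp hdvd
    have h2 : ((r : ℤ) - s) = 0 := by
      apply Int.eq_zero_of_abs_lt_dvd h1
      rw [abs_lt]
      constructor <;> omega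
    apply hsr
    omega
  · intro h
    exact absurd (Finset.mem_range.mpr hr) h

/-- decomposition of a Laurent series along the residue classes modulo `n` -/
theorem decomp (Y : LaurentSeries R) :
    Y = ∑ s ∈ Finset.range n, single (s : ℤ) (1 : R) * qExpand R n (sec n s Y) := by
  ext a
  have hn : (0 : ℤ) < n := by exact_mod_cast Nat.pos_of_ne_zero (NeZero.ne n)
  have h0 : 0 ≤ a % n := Int.emod_nonneg a hn.ne'
  have h1 : a % n < n := Int.emod_lt_of_pos a hn
  obtain ⟨r, hr⟩ : ∃ r : ℕ, (r : ℤ) = a % n := ⟨(a % n).toNat, Int.toNat_of_nonneg h0⟩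
  have hrn : r < n := by
    have : (r : ℤ) < n := by rw [hr]; exact h1
    exact_mod_cast this
  have ha : a = n * (a / n) + r := by
    rw [hr]
    exact (Int.mul_ediv_add_emod a n).symm
  conv_rhs => rw [ha]
  rw [coeff_decomp n (fun s => sec n s Y) hrn, sec_coeff, ← ha]

/-- sections and multiplication by a series in `t^n` -/
theorem sec_qExpand_mul (X Y : LaurentSeries R) {r : ℕ} (hr : r < n) :
    sec n r (qExpand R n X * Y) = X * sec n r Y := by
  ext m
  rw [sec_coeff]
  have h : qExpand R n X * Y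
      = ∑ s ∈ Finset.range n, single (s : ℤ) (1 : R) * qExpand R n (X * sec n s Y) := by
    conv_lhs => rw [decomp n Y]
    rw [Finset.mul_sum]
    refine Finset.sum_congr rfl fun s _ => ?_
    rw [map_mul]
    ring
  rw [h, coeff_decomp n (fun s => X * sec n s Y) hr]

theorem exists_sec_ne_zero {Y : LaurentSeries R} (hY : Y ≠ 0) :
    ∃ r : ℕ, r < n ∧ sec n r Y ≠ 0 := by
  by_contra hcon
  push Not at hcon
  apply hY
  rw [decomp n Y]
  refine Finset.sum_eq_zero fun s hs => ?_
  rw [hcon s (Finset.mem_range.mp hs), map_zero, mul_zero]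

end Sections

/-! ### `RedRel` over `⊤` -/

section Red

variable {L : Type*} [Field L] (A : ValuationSubring L) {k : Type*} [Field k] (π : A →+* k)

/-- descent of `RedRel` along `q ↦ q ^ n` -/
theorem redRel_top_of_qExpand (n : ℕ) [NeZero n] {T : LaurentSeries L} {tb : LaurentSeries k}
    (h : RedRel A π ⊤ (qExpand L n T) (qExpand k n tb)) : RedRel A π ⊤ T tb := by
  obtain ⟨Y₁, Y₂, -, -, h3, h4, h5⟩ := h
  obtain ⟨r, hr, hne⟩ := exists_sec_ne_zero n h3
  refine ⟨sec n r Y₁, sec n r Y₂, IntermediateField.mem_top, IntermediateField.mem_top, ?_, ?_, ?_⟩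
  · rw [coeffMap_sec]
    exact hne
  · have := congrArg (sec n r) h4
    rw [sec_qExpand_mul n _ _ hr] at this
    rw [coeffMap_sec, coeffMap_sec]
    exact this
  · have := congrArg (sec n r) h5
    rw [sec_qExpand_mul n _ _ hr] at this
    rw [coeffMap_sec, coeffMap_sec]
    exact this

/-- `RedRel` and `q ↦ q ^ n` -/
theorem redRel_top_qExpand (n : ℕ) [NeZero n] {v : LaurentSeries L} {vb : LaurentSeries k}
    (h : RedRel A π ⊤ v vb) : RedRel A π ⊤ (qExpand L n v) (qExpand k n vb) := by
  obtain ⟨y₁, y₂, -, -, h3, h4, h5⟩ := h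
  refine ⟨qExpand A n y₁, qExpand A n y₂, IntermediateField.mem_top, IntermediateField.mem_top,
    ?_, ?_, ?_⟩
  · rw [ModularCurve.coeffMap_qExpand]
    intro h0
    exact h3 (qExpand_injective n (by rw [h0, map_zero]))
  · rw [ModularCurve.coeffMap_qExpand, ModularCurve.coeffMap_qExpand, ← map_mul, h4]
  · rw [ModularCurve.coeffMap_qExpand, ModularCurve.coeffMap_qExpand, ← map_mul, h5]

/-- `RedRel` and `t ↦ ζ t` for a unit `ζ ≡ 1` -/
theorem redRel_top_twist (ζA : Aˣ) (hζ : π ζA = 1) {d : LaurentSeries L} {wb : LaurentSeries k}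
    (h : RedRel A π ⊤ d wb) :
    RedRel A π ⊤ (twist (Units.map (A.subtype : A →* L) ζA) d) wb := by
  obtain ⟨y₁, y₂, -, -, h3, h4, h5⟩ := h
  have hζ' : Units.map (π : A →* k) ζA = 1 := Units.ext hζ
  have hπ : ∀ y : LaurentSeries A, coeffMap π (twist ζA y) = coeffMap π y := by
    intro y
    rw [coeffMap_twist, hζ', twist_one]
  refine ⟨twist ζA y₁, twist ζA y₂, IntermediateField.mem_top, IntermediateField.mem_top,
    ?_, ?_, ?_⟩
  · rw [hπ]
    exact h3
  · rw [coeffMap_twist, coeffMap_twist, ← map_mul, h4]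
  · rw [hπ, hπ]
    exact h5

theorem redRel_top_prod_twist (ζA : Aˣ) (hζ : π ζA = 1) {d : LaurentSeries L}
    {wb : LaurentSeries k} (h : RedRel A π ⊤ d wb) (s : Finset ℕ) :
    RedRel A π ⊤ (∏ b ∈ s, twist ((Units.map (A.subtype : A →* L) ζA) ^ b) d) (wb ^ s.card) := by
  classical
  induction s using Finset.induction_on with
  | empty => simpa using redRel_one
  | insert a t hat ih =>
    rw [Finset.prod_insert hat, Finset.card_insert_of_notMem hat, pow_succ']
    refine RedRel.mul ?_ ih
    have h1 : (Units.map (A.subtype : A →* L) ζA) ^ a = Units.map (A.subtype : A →* L) (ζA ^ a) :=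
      (map_pow _ _ _).symm
    rw [h1]
    refine redRel_top_twist A π (ζA ^ a) ?_ h
    rw [Units.val_pow_eq_pow_val, map_pow, hζ, one_pow]

/-- **Reduction of the norm formula with diamond**, at the level of Laurent series. -/
theorem redRel_top_of_normFormula (p : ℕ) [hp : Fact p.Prime] [NeZero p] [CharP k p]
    (ζA : Aˣ) (hζ : π ζA = 1) {T v d : LaurentSeries L} {vb wb : LaurentSeries k}
    (hC1 : qExpand L p T = qExpand L (p * p) v *
      ∏ b ∈ Finset.range p, twist ((Units.map (A.subtype : A →* L) ζA) ^ b) d)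
    (hv : RedRel A π ⊤ v vb) (hd : RedRel A π ⊤ d wb) :
    RedRel A π ⊤ T (qExpand k p vb * coeffMap (frobenius k p) wb) := by
  apply redRel_top_of_qExpand A π p
  rw [hC1, map_mul, qExpand_qExpand, ← laurent_pow_char]
  have h1 := redRel_top_qExpand A π (p * p) hv
  have h2 := redRel_top_prod_twist A π ζA hζ hd (Finset.range p)
  rw [Finset.card_range] at h2
  exact h1.mul h2

end Red

end Fermat.Agent.S48x.Kummer1.ESAux
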