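import Mathlib
import Fermat.Agent.Gateway.Kummer.Export
import Fermat.Agent.S48x.HeckeFF.Pair
import Fermat.Agent.S28.Laurent

/-!
# P-S48, KUMMER1 (K2): the Eichler-Shimura relation with diamond twist on torsion

Generic in the rational model fields `F₀ ≤ F₁` (`F₀_L := laurentBaseChange L F₀`), with
`α = alphaG` (inclusion), `β = betaG` (`q ↦ q^p`), `T = heckeG I = α_* β^*` on `Pic⁰ (F₀_L)` and an
`L`-automorphism `δ` of `F₀_L` (diamond operator) commuting with the coefficientwise Galois action.

Inputs: (C1') the `q`-expansion norm formula with diamond twist (shape of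
`HeckeFF.NormQ1.normQExp_hecke`), (Hnorm), (C0) (shapes of `Gateway.Kummer.GaussNormalisable`,
`KummerRedInj` with `FF L N` replaced by `F₀_L`).  Output, for a Frobenius lift `σ` at `A` over `p`:
`δ • σ • σ • x - T (σ • x) + p • x = 0` on `Pic⁰ (F₀_L)[m]`.

NO compatibility of `δ` with the reduction is assumed: `δ (σ u)` is renormalised by a constant via
(Hnorm), the constant drops out of the Kummer class; the reduction of `Norm_α (β u)` is computed
in `RedRel A π ⊤` (fractions of arbitrary `A`-integral series) and brought back to `F₀_L` by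
`redRel_of_top`.
-/

set_option autoImplicit false
set_option linter.unusedSectionVars false
set_option linter.style.haveILetI false

noncomputable section

namespace Fermat.Agent.S48x.Kummer1.ES47

open ModularCurve AlgebraicCurve HahnSeries
open Fermat.Agent.Gateway Fermat.Agent.Gateway.Kummer Fermat.Agent.S48x.HeckeFF

/-! ### Generalities on `RedRel` -/

section General

theorem coeffMap_C {R S : Type*} [CommRing R] [CommRing S] (f : R →+* S) (a : R) :
    coeffMap f (HahnSeries.C a : LaurentSeries R) = HahnSeries.C (f a) := by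
  rw [HahnSeries.C_apply, HahnSeries.C_apply, coeffMap_single]

variable {L : Type*} [Field L] {A : ValuationSubring L} {k : Type*} [Field k] {π : A →+* k}
  {F F' : IntermediateField L (LaurentSeries L)}

theorem C_mem (F : IntermediateField L (LaurentSeries L)) (c : L) :
    (HahnSeries.C c : LaurentSeries L) ∈ F := by
  have := F.algebraMap_mem c
  rwa [algebraMap_laurentSeries_eq_single] at this

theorem coe_algebraMap (F : IntermediateField L (LaurentSeries L)) (c : L) :
    ((algebraMap L F c : F) : LaurentSeries L) = HahnSeries.C c := by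
  have h : ((algebraMap L F c : F) : LaurentSeries L) = algebraMap L (LaurentSeries L) c := rfl
  rw [h, algebraMap_laurentSeries_eq_single]
  rfl

theorem redRel_mono (h : F ≤ F') {u : LaurentSeries L} {ū : LaurentSeries k}
    (hu : RedRel A π F u ū) : RedRel A π F' u ū := by
  obtain ⟨y₁, y₂, h1, h2, h3, h4, h5⟩ := hu
  exact ⟨y₁, y₂, h h1, h h2, h3, h4, h5⟩

theorem redRel_top {u : LaurentSeries L} {ū : LaurentSeries k}
    (hu : RedRel A π F u ū) : RedRel A π ⊤ u ū := redRel_mono le_top hu

/-- constants of `A` reduce to their residue classes. -/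
theorem redRel_C (F : IntermediateField L (LaurentSeries L)) (a : A) :
    RedRel A π F (HahnSeries.C (a : L)) (HahnSeries.C (π a)) := by
  refine ⟨HahnSeries.C a, 1, ?_, ?_, ?_, ?_, ?_⟩
  · rw [coeffMap_C]; exact C_mem F _
  · rw [map_one]; exact F.one_mem
  · rw [map_one]; exact one_ne_zero
  · rw [map_one, mul_one, coeffMap_C]; rfl
  · rw [map_one, mul_one, coeffMap_C]

/-- a constant with a nonzero reduction is a unit of `A`, and its reduction is its residue
class. -/
theorem const_of_redRel (hπ : ∀ a : A, π a ≠ 0 → IsUnit a) {c : L} {w : LaurentSeries k}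
    (h : RedRel A π F (HahnSeries.C c) w) (hw : w ≠ 0) :
    ∃ a : A, (a : L) = c ∧ w = HahnSeries.C (π a) ∧ π a ≠ 0 := by
  obtain ⟨y₁, y₂, -, -, h3, h4, h5⟩ := h
  obtain ⟨n, hn⟩ : ∃ n, (coeffMap π y₂).coeff n ≠ 0 := by
    by_contra hcon
    apply h3
    ext n
    by_contra hn
    exact hcon ⟨n, hn⟩
  rw [coeffMap_coeff] at hn
  obtain ⟨b, hb⟩ := hπ _ hn
  have hcn : c * ((y₂.coeff n : A) : L) = ((y₁.coeff n : A) : L) := by
    have := congrArg (fun z : LaurentSeries L => z.coeff n) h4
    simp only [HahnSeries.C_mul_eq_smul, HahnSeries.coeff_smul, smul_eq_mul, coeffMap_coeff] at this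
    exact this
  set a : A := y₁.coeff n * (b⁻¹ : Aˣ) with ha
  have hac : (a : L) = c := by
    have hb' : ((y₂.coeff n : A) : L) = ((b : A) : L) := by rw [hb]
    have hbinv : ((b : A) : L) * (((b⁻¹ : Aˣ) : A) : L) = 1 := by
      rw [← MulMemClass.coe_mul, ← Units.val_mul, mul_inv_cancel, Units.val_one]; rfl
    rw [ha, MulMemClass.coe_mul, ← hcn, hb', mul_assoc, hbinv, mul_one]
  have hy : y₁ = HahnSeries.C a * y₂ := by
    apply coeffMap_subtype_injective A
    rw [map_mul, coeffMap_C, ← h4]
    show HahnSeries.C c * _ = HahnSeries.C (a : L) * _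
    rw [hac]
  have hw' : w = HahnSeries.C (π a) := by
    have h6 : w * coeffMap π y₂ = HahnSeries.C (π a) * coeffMap π y₂ := by
      rw [h5, hy, map_mul, coeffMap_C]
    exact mul_right_cancel₀ h3 h6
  refine ⟨a, hac, hw', ?_⟩
  intro h0
  rw [h0, map_zero] at hw'
  exact hw hw'

/-- **Upgrade from `⊤` to `F`**: an element of `F` with a nonzero reduction as a fraction of
arbitrary integral series has the same reduction as a fraction of integral series of `F`, if `F`
is Gauss-normalisable. -/
theorem redRel_of_top (hπ : ∀ a : A, π a ≠ 0 → IsUnit a)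
    (hnorm : ∀ f : LaurentSeries L, f ∈ F → f ≠ 0 → ∃ c : L, c ≠ 0 ∧ ∃ g : LaurentSeries k,
      g ≠ 0 ∧ RedRel A π F (HahnSeries.C c * f) g)
    {f : LaurentSeries L} (hf : f ∈ F) {w : LaurentSeries k} (h : RedRel A π ⊤ f w)
    (hw : w ≠ 0) : RedRel A π F f w := by
  have hf0 : f ≠ 0 := h.ne_zero hw
  obtain ⟨c, hc, g, hg, hred⟩ := hnorm f hf hf0
  have h1 : RedRel A π ⊤ (HahnSeries.C c) (g / w) := by
    have h2 := (redRel_top hred).div h hw
    rwa [mul_div_assoc, div_self hf0, mul_one] at h2
  obtain ⟨a, hac, hgw, ha0⟩ := const_of_redRel hπ h1 (div_ne_zero hg hw)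
  obtain ⟨b, hb⟩ := hπ a ha0
  have h3 := (redRel_C (π := π) F ((b⁻¹ : Aˣ) : A)).mul hred
  have e1 : HahnSeries.C ((((b⁻¹ : Aˣ) : A)) : L) * (HahnSeries.C c * f) = f := by
    rw [← mul_assoc, ← map_mul, ← hac, ← hb, ← MulMemClass.coe_mul, ← Units.val_mul,
      inv_mul_cancel, Units.val_one]
    simp
  have e2 : HahnSeries.C (π ((b⁻¹ : Aˣ) : A)) * g = w := by
    have hg' : g = HahnSeries.C (π a) * w := by
      rw [← hgw, div_mul_cancel₀ _ hw]
    rw [hg', ← mul_assoc, ← map_mul, ← map_mul, ← hb, ← Units.val_mul, inv_mul_cancel,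
      Units.val_one, map_one, map_one, one_mul]
  rwa [e1, e2] at h3

end General

/-! ### Products of twists -/

section TwistProd

variable {R : Type*} [CommRing R]

theorem kummerTwist_eq (ζ : Rˣ) : Kummer.twist ζ = Fermat.Agent.S28.twist ζ := by
  ext f n
  rfl

/-- the product of the twists of `y` by the powers of `ζ`. -/
def prodTwist (p : ℕ) (ζ : Rˣ) (y : LaurentSeries R) : LaurentSeries R :=
  ∏ b ∈ Finset.range p, Kummer.twist (ζ ^ b) y

theorem coeffMap_prodTwist {S : Type*} [CommRing S] (f : R →+* S) (p : ℕ) (ζ : Rˣ)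
    (y : LaurentSeries R) :
    coeffMap f (prodTwist p ζ y) = prodTwist p (Units.map (f : R →* S) ζ) (coeffMap f y) := by
  unfold prodTwist
  rw [map_prod]
  refine Finset.prod_congr rfl fun b _ => ?_
  rw [Kummer.coeffMap_twist, map_pow]

theorem prodTwist_one (p : ℕ) (y : LaurentSeries R) : prodTwist p (1 : Rˣ) y = y ^ p := by
  unfold prodTwist
  simp only [one_pow, Kummer.twist_one, Finset.prod_const, Finset.card_range]

theorem prodTwist_mul (p : ℕ) (ζ : Rˣ) (x y : LaurentSeries R) :
    prodTwist p ζ (x * y) = prodTwist p ζ x * prodTwist p ζ y := by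
  unfold prodTwist
  rw [← Finset.prod_mul_distrib]
  exact Finset.prod_congr rfl fun b _ => map_mul _ _ _

theorem prodTwist_C (p : ℕ) (ζ : Rˣ) (r : R) :
    prodTwist p ζ (HahnSeries.C r) = HahnSeries.C (r ^ p) := by
  unfold prodTwist
  have : ∀ b ∈ Finset.range p, Kummer.twist (ζ ^ b) (HahnSeries.C r : LaurentSeries R)
      = HahnSeries.C r := by
    intro b _
    rw [kummerTwist_eq, Fermat.Agent.S28.twist_C]
  rw [Finset.prod_congr rfl this, Finset.prod_const, Finset.card_range, map_pow]

variable [IsDomain R] {p : ℕ} [NeZero p]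

/-- the product of the twists is a series in `q ^ p`. -/
theorem exists_qExpand_eq_prodTwist {ζ : Rˣ} (hζ : IsPrimitiveRoot ζ p) (y : LaurentSeries R) :
    ∃ y' : LaurentSeries R, qExpand R p y' = prodTwist p ζ y := by
  have hmem : prodTwist p ζ y ∈ Set.range (qExpand R p) := by
    rw [← Fermat.Agent.S28.twist_eq_self_iff p hζ]
    by_cases hy : y = 0
    · subst hy
      have h0 : prodTwist p ζ (0 : LaurentSeries R) = 0 := by
        unfold prodTwist
        apply Finset.prod_eq_zero (i := 0)
        · exact Finset.mem_range.mpr (Nat.pos_of_ne_zero (NeZero.ne p))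
        · rw [map_zero]
      rw [h0, map_zero]
    · -- shift the product
      set f : ℕ → LaurentSeries R := fun b => Kummer.twist (ζ ^ b) y with hf
      have hshift : ∀ b, Fermat.Agent.S28.twist ζ (f b) = f (b + 1) := by
        intro b
        rw [hf]
        show Fermat.Agent.S28.twist ζ (Kummer.twist (ζ ^ b) y) = Kummer.twist (ζ ^ (b + 1)) y
        rw [kummerTwist_eq, kummerTwist_eq, Fermat.Agent.S28.twist_twist, pow_succ']
      have hfp : f p = f 0 := by
        rw [hf]
        show Kummer.twist (ζ ^ p) y = Kummer.twist (ζ ^ 0) y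
        rw [hζ.pow_eq_one, pow_zero]
      have hf0 : f 0 ≠ 0 := by
        rw [hf]
        show Kummer.twist (ζ ^ 0) y ≠ 0
        rw [pow_zero, Kummer.twist_one]
        exact hy
      have h1 : Fermat.Agent.S28.twist ζ (prodTwist p ζ y) = ∏ b ∈ Finset.range p, f (b + 1) := by
        unfold prodTwist
        rw [map_prod]
        exact Finset.prod_congr rfl fun b _ => hshift b
      have h2 : (∏ b ∈ Finset.range p, f (b + 1)) * f 0 = (∏ b ∈ Finset.range p, f b) * f 0 := by
        rw [← Finset.prod_range_succ' f p, Finset.prod_range_succ f p, hfp]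
      rw [h1]
      exact mul_right_cancel₀ hf0 h2
  exact hmem

end TwistProd

/-! ### The multiplicative Hecke operator on functions -/

section Hecke

variable {L : Type*} [Field L] [Algebra ℚ L]
variable {F₀ F₁ : IntermediateField ℚ (LaurentSeries ℚ)} {p : ℕ} [NeZero p]
variable (hle : F₀ ≤ F₁) (hq : ∀ y ∈ F₀, qExpand ℚ p y ∈ F₁)

/-- the multiplicative Hecke operator on functions, `Norm_α (β u)`. -/
def heckeFunG (u : laurentBaseChange L F₀) : laurentBaseChange L F₀ :=
  Kummer.normAlong (alphaG L hle) (betaG L p hq u)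

theorem heckeFunG_one : heckeFunG hle hq (1 : laurentBaseChange L F₀) = 1 := by
  unfold heckeFunG Kummer.normAlong
  rw [map_one]
  letI := algebraAlong (alphaG L hle)
  exact map_one (Algebra.norm _)

theorem heckeFunG_mul (u v : laurentBaseChange L F₀) :
    heckeFunG hle hq (u * v) = heckeFunG hle hq u * heckeFunG hle hq v := by
  unfold heckeFunG Kummer.normAlong
  rw [map_mul]
  letI := algebraAlong (alphaG L hle)
  exact map_mul (Algebra.norm _) _ _

theorem heckeFunG_ne_zero {u : laurentBaseChange L F₀} (hu : u ≠ 0) :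
    heckeFunG hle hq u ≠ 0 := by
  intro h0
  have h1 : heckeFunG hle hq (u * u⁻¹) = 1 := by rw [mul_inv_cancel₀ hu, heckeFunG_one]
  rw [heckeFunG_mul, h0, zero_mul] at h1
  exact zero_ne_one h1

/-- the Hecke correspondence acts on Kummer representatives through `heckeFunG`. -/
theorem isKummerRep_heckeG [IsAlgClosed L] (I : FFInputs (betaG L p hq) (alphaG L hle)) {m : ℕ}
    {x : Pic0 L (laurentBaseChange L F₀)} {u : laurentBaseChange L F₀}
    (hx : IsKummerRep m x u) : IsKummerRep m (heckeG I x) (heckeFunG hle hq u) := by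
  haveI := I.pd'
  exact hx.correspondence (betaG L p hq) (alphaG L hle) I.intφ I.intψ I.fiφ I.finψ I.nfψ

variable (A : ValuationSubring L) {k : Type*} [Field k] [hp : Fact p.Prime] [CharP k p]
  (π : A →+* k)

/-- **Reduction of `heckeFunG` on integral elements**, with the diamond twist renormalised by a
constant: the result is a fraction of integral series (not necessarily in `F₀_L`). -/
theorem redRel_heckeFunG_integral
    (δ : laurentBaseChange L F₀ →+* laurentBaseChange L F₀)
    (ζA : Aˣ) (hζp : IsPrimitiveRoot ζA p) (hζ1 : π ζA = 1)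
    (hC1 : ∀ u : laurentBaseChange L F₀,
      qExpand L p ((heckeFunG hle hq u : laurentBaseChange L F₀) : LaurentSeries L)
        = qExpand L (p * p) (u : LaurentSeries L)
          * prodTwist p (Units.map (A.subtype : A →* L) ζA)
              ((δ u : laurentBaseChange L F₀) : LaurentSeries L))
    (Y : LaurentSeries A) (hY : coeffMap A.subtype Y ∈ laurentBaseChange L F₀)
    {c : L} {W : LaurentSeries k}
    (hW : RedRel A π (laurentBaseChange L F₀)
      (HahnSeries.C c * ((δ ⟨_, hY⟩ : laurentBaseChange L F₀) : LaurentSeries L)) W) :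
    RedRel A π ⊤
      (HahnSeries.C (c ^ p)
        * ((heckeFunG hle hq ⟨_, hY⟩ : laurentBaseChange L F₀) : LaurentSeries L))
      (qExpand k p (coeffMap π Y) * coeffMap (frobenius k p) W) := by
  obtain ⟨a, b, -, -, hb0, hab, habr⟩ := hW
  obtain ⟨a', ha'⟩ := exists_qExpand_eq_prodTwist hζp a
  obtain ⟨b', hb'⟩ := exists_qExpand_eq_prodTwist hζp b
  have hπζ : Units.map (π : A →* k) ζA = 1 := Units.ext hζ1
  -- reductions of the contracted products
  have hred : ∀ y y' : LaurentSeries A, qExpand A p y' = prodTwist p ζA y →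
      coeffMap π y' = coeffMap (frobenius k p) (coeffMap π y) := by
    intro y y' h
    apply qExpand_injective (R := k) p
    rw [← Kummer.coeffMap_qExpand, h, coeffMap_prodTwist, hπζ, prodTwist_one, laurent_pow_char]
  -- the identity over `L`
  have hprod : HahnSeries.C (c ^ p)
      * prodTwist p (Units.map (A.subtype : A →* L) ζA)
          ((δ ⟨_, hY⟩ : laurentBaseChange L F₀) : LaurentSeries L)
      * coeffMap A.subtype (prodTwist p ζA b) = coeffMap A.subtype (prodTwist p ζA a) := by
    rw [coeffMap_prodTwist, coeffMap_prodTwist,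
      ← prodTwist_C p (Units.map (A.subtype : A →* L) ζA) c, ← prodTwist_mul, ← prodTwist_mul, hab]
  have key : qExpand L p (HahnSeries.C (c ^ p)
      * ((heckeFunG hle hq ⟨_, hY⟩ : laurentBaseChange L F₀) : LaurentSeries L)
      * coeffMap A.subtype b') = qExpand L p (coeffMap A.subtype (qExpand A p Y * a')) := by
    rw [map_mul, map_mul, qExpand_C, hC1, ← Kummer.coeffMap_qExpand A.subtype p b', hb',
      map_mul (coeffMap A.subtype), map_mul (qExpand L p), ← Kummer.coeffMap_qExpand A.subtype p a', ha',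
      ← hprod, Kummer.coeffMap_qExpand, qExpand_qExpand]
    ring
  have key' := qExpand_injective (R := L) p key
  refine ⟨qExpand A p Y * a', b', IntermediateField.mem_top, IntermediateField.mem_top, ?_, key',
    ?_⟩
  · rw [hred b b' hb']
    exact coeffMap_ne_zero (frobenius k p).injective hb0
  · rw [hred b b' hb', map_mul, hred a a' ha', Kummer.coeffMap_qExpand, ← habr, map_mul]
    ring

end Hecke

/-! ### Galois action and reductions -/

section Galois

variable {L : Type*} [Field L] [Algebra ℚ L] (F₀ : IntermediateField ℚ (LaurentSeries ℚ))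
  (A : ValuationSubring L)

/-- elements of the decomposition group act compatibly on reductions. -/
theorem redRel_decomposition (σ : L ≃ₐ[ℚ] L) (hσ : σ ∈ A.decompositionSubgroup ℚ)
    {u : LaurentSeries L} {ū : LaurentSeries (IsLocalRing.ResidueField A)}
    (hu : RedRel A (IsLocalRing.residue A) (laurentBaseChange L F₀) u ū) :
    RedRel A (IsLocalRing.residue A) (laurentBaseChange L F₀) (coeffMap (σ : L →+* L) u)
      (coeffMap (MulSemiringAction.toRingHom (A.decompositionSubgroup ℚ)
        (IsLocalRing.ResidueField A) ⟨σ, hσ⟩) ū) := by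
  refine hu.map (σ : L →+* L)
    (MulSemiringAction.toRingHom (A.decompositionSubgroup ℚ) A ⟨σ, hσ⟩) _ ?_ ?_ ?_
  · intro a
    rfl
  · intro a
    rfl
  · intro x hx
    exact coeffMap_mem_laurentBaseChange σ hx

/-- a Frobenius lift acts on reductions through the coefficientwise Frobenius. -/
theorem redRel_frobenius {ℓ : ℕ} [ExpChar (IsLocalRing.ResidueField A) ℓ] (σ : L ≃ₐ[ℚ] L)
    (hσ : A.IsFrobeniusAt σ ℓ)
    {u : LaurentSeries L} {ū : LaurentSeries (IsLocalRing.ResidueField A)}
    (hu : RedRel A (IsLocalRing.residue A) (laurentBaseChange L F₀) u ū) :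
    RedRel A (IsLocalRing.residue A) (laurentBaseChange L F₀) (coeffMap (σ : L →+* L) u)
      (coeffMap (frobenius (IsLocalRing.ResidueField A) ℓ) ū) := by
  have h := redRel_decomposition F₀ A σ hσ.mem_decompositionSubgroup hu
  have he : MulSemiringAction.toRingHom (A.decompositionSubgroup ℚ)
      (IsLocalRing.ResidueField A) ⟨σ, hσ.mem_decompositionSubgroup⟩
      = frobenius (IsLocalRing.ResidueField A) ℓ := by
    ext x
    rw [MulSemiringAction.toRingHom_apply, hσ.smul_residue_eq, frobenius_def]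
  rwa [he] at h

end Galois

/-! ### Reduction of `heckeFunG` on fractions -/

section Fractions

variable {L : Type*} [Field L] [Algebra ℚ L]
variable {F₀ F₁ : IntermediateField ℚ (LaurentSeries ℚ)} {p : ℕ} [NeZero p]
variable (hle : F₀ ≤ F₁) (hq : ∀ y ∈ F₀, qExpand ℚ p y ∈ F₁)
variable (A : ValuationSubring L) {k : Type*} [Field k] [hp : Fact p.Prime] [CharP k p]
  (π : A →+* k)

/-- **Reduction of `heckeFunG` with diamond twist**: if `v` reduces to `v̄ ≠ 0`, then for a suitable
constant `c`, `c • δ v` reduces to some `W ≠ 0` and `c ^ p • Norm_α (β v)` reduces (as a fraction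
of arbitrary integral series) to `v̄(q^p) * Fr W`. -/
theorem exists_redRel_heckeFunG
    (δ : laurentBaseChange L F₀ →+* laurentBaseChange L F₀)
    (ζA : Aˣ) (hζp : IsPrimitiveRoot ζA p) (hζ1 : π ζA = 1)
    (hC1 : ∀ u : laurentBaseChange L F₀,
      qExpand L p ((heckeFunG hle hq u : laurentBaseChange L F₀) : LaurentSeries L)
        = qExpand L (p * p) (u : LaurentSeries L)
          * prodTwist p (Units.map (A.subtype : A →* L) ζA)
              ((δ u : laurentBaseChange L F₀) : LaurentSeries L))
    (hnorm : ∀ u : laurentBaseChange L F₀, u ≠ 0 → ∃ c : L, c ≠ 0 ∧ ∃ ū : LaurentSeries k,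
      ū ≠ 0 ∧ RedRel A π (laurentBaseChange L F₀)
        (((algebraMap L (laurentBaseChange L F₀) c * u : laurentBaseChange L F₀)) :
          LaurentSeries L) ū)
    {v : laurentBaseChange L F₀} {vb : LaurentSeries k}
    (hv : RedRel A π (laurentBaseChange L F₀) (v : LaurentSeries L) vb) (hvb : vb ≠ 0) :
    ∃ c : L, c ≠ 0 ∧ ∃ W : LaurentSeries k, W ≠ 0 ∧
      RedRel A π (laurentBaseChange L F₀)
        (HahnSeries.C c * ((δ v : laurentBaseChange L F₀) : LaurentSeries L)) W ∧
      RedRel A π ⊤
        (HahnSeries.C (c ^ p) * ((heckeFunG hle hq v : laurentBaseChange L F₀) : LaurentSeries L))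
        (qExpand k p vb * coeffMap (frobenius k p) W) := by
  obtain ⟨y₁, y₂, h1, h2, h3, h4, h5⟩ := hv
  have hy1 : coeffMap π y₁ ≠ 0 := by rw [← h5]; exact mul_ne_zero hvb h3
  have hne : ∀ y : LaurentSeries A, coeffMap π y ≠ 0 → coeffMap A.subtype y ≠ 0 := by
    intro y hy h0
    apply hy
    have : y = 0 := coeffMap_subtype_injective A (by rw [h0, map_zero])
    rw [this, map_zero]
  set Y₁ : laurentBaseChange L F₀ := ⟨_, h1⟩ with hY₁
  set Y₂ : laurentBaseChange L F₀ := ⟨_, h2⟩ with hY₂
  have hY₁0 : Y₁ ≠ 0 := fun h => hne y₁ hy1 (congrArg Subtype.val h)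
  have hY₂0 : Y₂ ≠ 0 := fun h => hne y₂ h3 (congrArg Subtype.val h)
  have hvY : v * Y₂ = Y₁ := Subtype.ext h4
  have hδ1 : δ Y₁ ≠ 0 := (map_ne_zero δ).mpr hY₁0
  have hδ2 : δ Y₂ ≠ 0 := (map_ne_zero δ).mpr hY₂0
  obtain ⟨c₁, hc₁, W₁, hW₁0, hW₁⟩ := hnorm (δ Y₁) hδ1
  obtain ⟨c₂, hc₂, W₂, hW₂0, hW₂⟩ := hnorm (δ Y₂) hδ2
  rw [MulMemClass.coe_mul, coe_algebraMap] at hW₁ hW₂
  have H₁ := redRel_heckeFunG_integral hle hq A π δ ζA hζp hζ1 hC1 y₁ h1 hW₁
  have H₂ := redRel_heckeFunG_integral hle hq A π δ ζA hζp hζ1 hC1 y₂ h2 hW₂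
  have hFr : ∀ {y : LaurentSeries k}, y ≠ 0 → coeffMap (frobenius k p) y ≠ 0 :=
    fun hy => coeffMap_ne_zero (frobenius k p).injective hy
  have hqE : ∀ {y : LaurentSeries k}, y ≠ 0 → qExpand k p y ≠ 0 := by
    intro y hy h0
    exact hy (qExpand_injective p (by rw [h0, map_zero]))
  have hne₂ : qExpand k p (coeffMap π y₂) * coeffMap (frobenius k p) W₂ ≠ 0 :=
    mul_ne_zero (hqE h3) (hFr hW₂0)
  have hC₂ : (HahnSeries.C c₂ : LaurentSeries L) ≠ 0 :=
    (map_ne_zero (HahnSeries.C : L →+* LaurentSeries L)).mpr hc₂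
  have hC₂p : (HahnSeries.C (c₂ ^ p) : LaurentSeries L) ≠ 0 :=
    (map_ne_zero (HahnSeries.C : L →+* LaurentSeries L)).mpr (pow_ne_zero _ hc₂)
  have hδ2' : ((δ Y₂ : laurentBaseChange L F₀) : LaurentSeries L) ≠ 0 :=
    fun h => hδ2 (Subtype.ext h)
  have hH2' : ((heckeFunG hle hq Y₂ : laurentBaseChange L F₀) : LaurentSeries L) ≠ 0 :=
    fun h => heckeFunG_ne_zero hle hq hY₂0 (Subtype.ext h)
  refine ⟨c₁ / c₂, div_ne_zero hc₁ hc₂, W₁ / W₂, div_ne_zero hW₁0 hW₂0, ?_, ?_⟩
  · have h := hW₁.div hW₂ hW₂0
    have e : HahnSeries.C (c₁ / c₂) * ((δ v : laurentBaseChange L F₀) : LaurentSeries L)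
        = HahnSeries.C c₁ * ((δ Y₁ : laurentBaseChange L F₀) : LaurentSeries L)
          / (HahnSeries.C c₂ * ((δ Y₂ : laurentBaseChange L F₀) : LaurentSeries L)) := by
      have e1 : ((δ Y₁ : laurentBaseChange L F₀) : LaurentSeries L)
          = ((δ v : laurentBaseChange L F₀) : LaurentSeries L)
            * ((δ Y₂ : laurentBaseChange L F₀) : LaurentSeries L) := by
        rw [← MulMemClass.coe_mul, ← map_mul, hvY]
      rw [e1, map_div₀]
      field_simp
    rw [e]
    exact h
  · have h := H₁.div H₂ hne₂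
    have e : HahnSeries.C ((c₁ / c₂) ^ p)
        * ((heckeFunG hle hq v : laurentBaseChange L F₀) : LaurentSeries L)
        = HahnSeries.C (c₁ ^ p)
            * ((heckeFunG hle hq Y₁ : laurentBaseChange L F₀) : LaurentSeries L)
          / (HahnSeries.C (c₂ ^ p)
            * ((heckeFunG hle hq Y₂ : laurentBaseChange L F₀) : LaurentSeries L)) := by
      have e1 : ((heckeFunG hle hq Y₁ : laurentBaseChange L F₀) : LaurentSeries L)
          = ((heckeFunG hle hq v : laurentBaseChange L F₀) : LaurentSeries L)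
            * ((heckeFunG hle hq Y₂ : laurentBaseChange L F₀) : LaurentSeries L) := by
        rw [← MulMemClass.coe_mul, ← heckeFunG_mul, hvY]
      rw [e1, div_pow, map_div₀]
      field_simp
    have e' : qExpand k p vb * coeffMap (frobenius k p) (W₁ / W₂)
        = qExpand k p (coeffMap π y₁) * coeffMap (frobenius k p) W₁
          / (qExpand k p (coeffMap π y₂) * coeffMap (frobenius k p) W₂) := by
      have hq2 := hqE h3
      have hF2 := hFr hW₂0
      rw [← h5, map_mul, map_div₀]
      field_simp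
    rw [e, e']
    exact h

end Fractions

/-! ### The Eichler-Shimura relation with diamond twist -/

section Main

variable {L : Type*} [Field L] [Algebra ℚ L] [IsAlgClosed L]
variable {F₀ F₁ : IntermediateField ℚ (LaurentSeries ℚ)} {p : ℕ} [NeZero p] [hp : Fact p.Prime]
variable {hle : F₀ ≤ F₁} {hq : ∀ y ∈ F₀, qExpand ℚ p y ∈ F₁}

/-- **(K2) Eichler-Shimura with diamond twist on `m`-torsion**: for a Frobenius lift `σ` at `A`
over `p`, `δ • σ • σ • x - T (σ • x) + p • x = 0`. -/
theorem frobenius_quadratic_of_torsion_diamond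
    (I : FFInputs (betaG L p hq) (alphaG L hle))
    (A : ValuationSubring L) (hA : A.LiesOverPrime p)
    (δ : laurentBaseChange L F₀ ≃ₐ[L] laurentBaseChange L F₀)
    (hδσ : ∀ (σ : L ≃ₐ[ℚ] L) (u : laurentBaseChange L F₀),
      δ (arithmeticGalois F₀ σ • u) = arithmeticGalois F₀ σ • δ u)
    (ζ : Lˣ) (hζ : IsPrimitiveRoot ζ p)
    (hC1 : ∀ u : laurentBaseChange L F₀,
      qExpand L p ((Kummer.normAlong (alphaG L hle) (betaG L p hq u) : laurentBaseChange L F₀) :
          LaurentSeries L)
        = qExpand L (p * p) (u : LaurentSeries L)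
          * ∏ b ∈ Finset.range p,
              Kummer.twist (ζ ^ b) ((δ u : laurentBaseChange L F₀) : LaurentSeries L))
    {m : ℕ} (hm : m ≠ 0)
    (hnorm : ∀ u : laurentBaseChange L F₀, u ≠ 0 → ∃ c : L, c ≠ 0 ∧
      ∃ ū : LaurentSeries (IsLocalRing.ResidueField A), ū ≠ 0 ∧
        RedRel A (IsLocalRing.residue A) (laurentBaseChange L F₀)
          (((algebraMap L (laurentBaseChange L F₀) c * u : laurentBaseChange L F₀)) :
            LaurentSeries L) ū)
    (hC0 : ∀ z : laurentBaseChange L F₀, z ≠ 0 →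
      (∀ P : Place L (laurentBaseChange L F₀), (m : ℤ) ∣ P.ord z) →
      RedRel A (IsLocalRing.residue A) (laurentBaseChange L F₀) (z : LaurentSeries L) 1 →
      ∃ (c : L) (w : laurentBaseChange L F₀),
        z = algebraMap L (laurentBaseChange L F₀) c * w ^ m)
    (σ : L ≃ₐ[ℚ] L) (hσ : A.IsFrobeniusAt σ p)
    {x : Pic0 L (laurentBaseChange L F₀)} (hx : (m : ℤ) • x = 0) :
    SemilinearAut.ofAlgAut δ • σ • σ • x - heckeG I (σ • x) + p • x = 0 := by
  haveI : CharP (IsLocalRing.ResidueField A) p := charP_residueField hp.out A hA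
  obtain ⟨ζA, hζA, hres⟩ := exists_unit_of_pow_eq_one A hp.out ζ hζ.pow_eq_one
  have hζAp : IsPrimitiveRoot ζA p := by
    have hinj : Function.Injective (Units.map (A.subtype : A →* L)) :=
      Units.map_injective A.subtype_injective
    have h' : IsPrimitiveRoot (Units.map (A.subtype : A →* L) ζA) p := hζA ▸ hζ
    exact IsPrimitiveRoot.of_map_of_injective h' hinj
  have hπ : ∀ a : A, IsLocalRing.residue A a ≠ 0 → IsUnit a := fun a ha =>
    IsLocalRing.notMem_maximalIdeal.mp fun hmem => ha ((IsLocalRing.residue_eq_zero_iff a).mpr hmem)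
  have hC1' : ∀ u : laurentBaseChange L F₀,
      qExpand L p ((heckeFunG hle hq u : laurentBaseChange L F₀) : LaurentSeries L)
        = qExpand L (p * p) (u : LaurentSeries L)
          * prodTwist p (Units.map (A.subtype : A →* L) ζA)
              (((δ : laurentBaseChange L F₀ →+* laurentBaseChange L F₀) u :
                laurentBaseChange L F₀) : LaurentSeries L) := by
    intro u
    rw [hζA]
    exact hC1 u
  set g := arithmeticGalois F₀ σ with hg
  set d : SemilinearAut L (laurentBaseChange L F₀) := SemilinearAut.ofAlgAut δ with hd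
  show d • g • g • x - heckeG I (g • x) + p • x = 0
  obtain ⟨u₀, hu₀⟩ := exists_isKummerRep hx
  obtain ⟨c, hc, ū, hū, hred⟩ := hnorm u₀ hu₀.ne_zero
  have hu := hu₀.const_mul hc
  set u : laurentBaseChange L F₀ := algebraMap L (laurentBaseChange L F₀) c * u₀ with hudef
  set Fr := coeffMap (frobenius (IsLocalRing.ResidueField A) p) with hFr
  have hFr_ne : ∀ {y : LaurentSeries (IsLocalRing.ResidueField A)}, y ≠ 0 → Fr y ≠ 0 :=
    fun hy => coeffMap_ne_zero (frobenius (IsLocalRing.ResidueField A) p).injective hy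
  -- `v := g • u` reduces to `Fr ū`
  have r1 : RedRel A (IsLocalRing.residue A) (laurentBaseChange L F₀)
      ((g • u : laurentBaseChange L F₀) : LaurentSeries L) (Fr ū) :=
    redRel_frobenius F₀ A σ hσ hred
  obtain ⟨c', hc', W, hW0, hWred, hHred⟩ := exists_redRel_heckeFunG hle hq A
    (IsLocalRing.residue A) (δ : laurentBaseChange L F₀ →+* laurentBaseChange L F₀) ζA hζAp hres
    hC1' hnorm r1 (hFr_ne hū)
  -- Kummer representatives
  have h1 : IsKummerRep m (d • g • g • x) (d • g • g • u) := ((hu.smul g).smul g).smul d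
  have h2 : IsKummerRep m (heckeG I (g • x)) (heckeFunG hle hq (g • u)) :=
    isKummerRep_heckeG hle hq I (hu.smul g)
  have h3 : IsKummerRep m (p • x) (u ^ p) := hu.pow p
  have h4 : IsKummerRep m (d • g • g • x - heckeG I (g • x) + p • x)
      ((d • g • g • u) / heckeFunG hle hq (g • u) * u ^ p) := (h1.div h2).mul h3
  have hκ : (σ c' / c' ^ p : L) ≠ 0 :=
    div_ne_zero ((map_ne_zero σ).mpr hc') (pow_ne_zero _ hc')
  have h4' := h4.const_mul hκ
  -- the reduction of `g • (c' δ (g • u))`
  have r2 : RedRel A (IsLocalRing.residue A) (laurentBaseChange L F₀)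
      (HahnSeries.C (σ c') * ((d • g • g • u : laurentBaseChange L F₀) : LaurentSeries L))
      (Fr W) := by
    have h := redRel_frobenius F₀ A σ hσ hWred
    have e : coeffMap (σ : L →+* L) (HahnSeries.C c'
        * (((δ : laurentBaseChange L F₀ →+* laurentBaseChange L F₀) (g • u) :
          laurentBaseChange L F₀) : LaurentSeries L))
        = HahnSeries.C (σ c') * ((d • g • g • u : laurentBaseChange L F₀) : LaurentSeries L) := by
      rw [map_mul, coeffMap_C]
      congr 1
      have : d • g • g • u = g • δ (g • u) := by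
        rw [hd, SemilinearAut.ofAlgAut_smul, hδσ]
      rw [this]
      rfl
    rwa [e] at h
  have r4 : RedRel A (IsLocalRing.residue A) (laurentBaseChange L F₀)
      ((u ^ p : laurentBaseChange L F₀) : LaurentSeries L) (ū ^ p) := hred.pow p
  have hne : qExpand (IsLocalRing.ResidueField A) p (Fr ū) * Fr W ≠ 0 := by
    refine mul_ne_zero ?_ (hFr_ne hW0)
    intro h0
    exact hFr_ne hū (qExpand_injective p (by rw [h0, map_zero]))
  have htop : RedRel A (IsLocalRing.residue A) ⊤
      (((algebraMap L (laurentBaseChange L F₀) (σ c' / c' ^ p)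
        * ((d • g • g • u) / heckeFunG hle hq (g • u) * u ^ p) : laurentBaseChange L F₀)) :
          LaurentSeries L) 1 := by
    have h5 := ((redRel_top r2).div hHred hne).mul (redRel_top r4)
    have e1 : Fr W / (qExpand (IsLocalRing.ResidueField A) p (Fr ū) * Fr W) * ū ^ p = 1 := by
      rw [laurent_pow_char p ū]
      have a1 : qExpand (IsLocalRing.ResidueField A) p (Fr ū) ≠ 0 := left_ne_zero_of_mul hne
      have a2 : Fr W ≠ 0 := hFr_ne hW0
      change Fr W / (qExpand (IsLocalRing.ResidueField A) p (Fr ū) * Fr W)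
        * qExpand (IsLocalRing.ResidueField A) p (Fr ū) = 1
      field_simp
    have e2 : (((algebraMap L (laurentBaseChange L F₀) (σ c' / c' ^ p)
        * ((d • g • g • u) / heckeFunG hle hq (g • u) * u ^ p) : laurentBaseChange L F₀)) :
          LaurentSeries L)
        = HahnSeries.C (σ c') * ((d • g • g • u : laurentBaseChange L F₀) : LaurentSeries L)
          / (HahnSeries.C (c' ^ p)
            * ((heckeFunG hle hq (g • u) : laurentBaseChange L F₀) : LaurentSeries L))
          * ((u ^ p : laurentBaseChange L F₀) : LaurentSeries L) := by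
      have hCp : (HahnSeries.C (c' ^ p) : LaurentSeries L) ≠ 0 :=
        (map_ne_zero (HahnSeries.C : L →+* LaurentSeries L)).mpr (pow_ne_zero _ hc')
      rw [MulMemClass.coe_mul, coe_algebraMap, MulMemClass.coe_mul, map_div₀]
      have e3 : (((d • g • g • u) / heckeFunG hle hq (g • u) : laurentBaseChange L F₀) :
          LaurentSeries L) = ((d • g • g • u : laurentBaseChange L F₀) : LaurentSeries L)
            / ((heckeFunG hle hq (g • u) : laurentBaseChange L F₀) : LaurentSeries L) := rfl
      rw [e3]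
      field_simp
    rw [e2]
    rwa [e1] at h5
  have hnorm' : ∀ f : LaurentSeries L, f ∈ laurentBaseChange L F₀ → f ≠ 0 → ∃ c : L, c ≠ 0 ∧
      ∃ w : LaurentSeries (IsLocalRing.ResidueField A), w ≠ 0 ∧
        RedRel A (IsLocalRing.residue A) (laurentBaseChange L F₀) (HahnSeries.C c * f) w := by
    intro f hf hf0
    obtain ⟨c₀, hc₀, w, hw, hr⟩ := hnorm ⟨f, hf⟩ (fun h => hf0 (congrArg Subtype.val h))
    rw [MulMemClass.coe_mul, coe_algebraMap] at hr
    exact ⟨c₀, hc₀, w, hw, hr⟩
  have hredz := redRel_of_top hπ hnorm' (Subtype.property _) htop one_ne_zero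
  obtain ⟨c'', w, hcw⟩ := hC0 _ h4'.ne_zero (fun P => h4'.dvd_ord P) hredz
  exact h4'.eq_zero_of_eq_const_mul_pow hm hcw

end Main

end Fermat.Agent.S48x.Kummer1.ES47
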